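/-
S36, block BP/Build, section LQ (task BUILD-LQ, helper104): criteria at a local ring `R` satisfying
the local `q`-expansion principle: `LocQep`, `exists_through`, `mem_of`, `runit_of`, `princ_of`,
`incidence`, `away_of_values`.
Statements as in `S36/BP/WIP/BuildSkeleton.lean`, except `exists_through`, which needs the extra
hypothesis `(q : F) ≠ 0` (otherwise `R = ⊤`, `κ = Empty` is a counterexample).
-/
import Mathlib
import Fermat.Agent.S18.Defs
import Fermat.Agent.S36.BP.Defs
import Fermat.Agent.S36.BP.Rad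

set_option autoImplicit false

noncomputable section

namespace Fermat.Agent.S36.BP.Build

open Fermat.Agent.S18 Polynomial

section LQ

variable {F : Type*} [Field F] {κ : Type*}

/-- the local `q`-expansion principle (conclusion of `Model.qep_loc`). -/
def LocQep (q : ℕ) (V : κ → ValuationSubring F) (R : Subring F) : Prop :=
  ∀ y : F, (q : F) * y ∈ R → (∀ c, Through R (V c) → y ∈ V c) → y ∈ R

theorem exists_through {q : ℕ} {V : κ → ValuationSubring F} {R : Subring F}
    (hqep : LocQep q V R) (hq0 : (q : F) ≠ 0) (hq : (q : F) ∈ rad R) : ∃ c, Through R (V c) := by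
  by_contra hcon
  have hinv : (q : F)⁻¹ ∈ R := by
    refine hqep _ ?_ fun c hc => (hcon ⟨c, hc⟩).elim
    rw [mul_inv_cancel₀ hq0]
    exact R.one_mem
  exact hq.2 ⟨hq0, hq.1, hinv⟩

/-- membership by orders. -/
theorem mem_of {q : ℕ} {V : κ → ValuationSubring F} {R : Subring F} (hqep : LocQep q V R)
    {y : F} {k : ℕ} (hk : (q : F) ^ k * y ∈ R) (hu : ∀ c, Through R (V c) → y ∈ V c) :
    y ∈ R := by
  induction k with
  | zero => simpa using hk
  | succ k ih =>
    refine ih (hqep _ ?_ fun c hc => ?_)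
    · rw [← mul_assoc, ← pow_succ']
      exact hk
    · exact mul_mem (pow_mem (natCast_mem (V c) q) k) (hu c hc)

/-- an element of `R` with trivial divisor is a unit. -/
theorem runit_of {q : ℕ} {V : κ → ValuationSubring F} {R : Subring F} (hqep : LocQep q V R)
    {Y : F} (hY : Y ∈ R) (hY0 : Y ≠ 0) {k : ℕ} (hk : (q : F) ^ k / Y ∈ R)
    (hu : ∀ c, Through R (V c) → (V c).valuation Y = 1) : RUnit R Y := by
  refine ⟨hY0, hY, mem_of hqep (k := k) ?_ fun c hc => ?_⟩
  · rw [← div_eq_mul_inv]
    exact hk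
  · exact (val_eq_one_iff.1 (hu c hc)).2.2

/-- **Principality criterion**: `z ∈ R` is a horizontal unit (`q ^ k / z ∈ R`), a uniformiser of
`V c₀` and a unit at the other components through `R`. -/
theorem princ_of {q : ℕ} {V : κ → ValuationSubring F} {R : Subring F} (hqep : LocQep q V R)
    (c₀ : κ) {z : F} (hz : z ∈ R) (hz0 : z ≠ 0) {k : ℕ} (hk : (q : F) ^ k / z ∈ R)
    (hlt : (V c₀).valuation z < 1)
    (hmax : ∀ y : F, (V c₀).valuation y < 1 → (V c₀).valuation y ≤ (V c₀).valuation z)
    (hother : ∀ c, c ≠ c₀ → Through R (V c) → (V c).valuation z = 1) : Princ R (V c₀) := by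
  refine ⟨z, hz, hz0, hlt, fun y hy hylt => mem_of hqep (k := k) ?_ fun c hc => ?_⟩
  · have : (q : F) ^ k * (y / z) = y * ((q : F) ^ k / z) := by ring
    rw [this]
    exact R.mul_mem hy hk
  · rw [mem_iff_val_le, map_div₀]
    by_cases hcc : c = c₀
    · subst hcc
      have hv : (V c).valuation z ≠ 0 := (Valuation.ne_zero_iff _).2 hz0
      exact div_le_one_of_le₀ (hmax y hylt) zero_le
    · rw [hother c hcc hc, div_one]
      exact mem_iff_val_le.1 (hc.le y hy)

/-- `Through` and `Away` exclude each other. -/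
theorem not_away_of_through {R : Subring F} {W : ValuationSubring F} (h : Through R W) :
    ¬ Away R W := by
  rintro ⟨e, he, hlt⟩
  rw [he.val_eq_one h.le] at hlt
  exact lt_irrefl _ hlt

/-- if `a - b` is a nonunit, then `a` is a nonunit iff `b` is. -/
theorem mem_rad_iff_of_sub {R : Subring F} (hadd : ∀ a ∈ rad R, ∀ b ∈ rad R, a + b ∈ rad R)
    {a b : F} (h : a - b ∈ rad R) : a ∈ rad R ↔ b ∈ rad R := by
  constructor
  · intro ha
    have := hadd _ ha _ (neg_mem_rad h)
    have e : a + -(a - b) = b := by ring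
    rwa [e] at this
  · intro hb
    have := hadd _ h _ hb
    have e : a - b + b = a := by ring
    rwa [e] at this

/-- a unit multiple of a positive power of `y` is a nonunit iff `y` is. -/
theorem unit_mul_pow_mem_rad_iff {R : Subring F} {e y : F} (he : RUnit R e) (hy : y ∈ R) {n : ℕ}
    (hn : n ≠ 0) : e * y ^ n ∈ rad R ↔ y ∈ rad R := by
  constructor
  · intro h
    refine ⟨hy, fun hu => h.2 (he.mul (hu.pow n))⟩
  · intro h
    obtain ⟨m, rfl⟩ := Nat.exists_eq_succ_of_ne_zero hn
    rw [pow_succ, ← mul_assoc]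
    exact mul_mem_rad (R.mul_mem he.mem (R.pow_mem hy m)) h

/-- **Incidence**: three indicator functions `Y c` (divisor supported on the component `c`) and
three congruences: one component or all three. -/
theorem incidence {q : ℕ} (hq : 2 ≤ q) {V : Fin 3 → ValuationSubring F} {R : Subring F}
    (hadd : ∀ a ∈ rad R, ∀ b ∈ rad R, a + b ∈ rad R)
    (hta : ∀ c, Through R (V c) ∨ Away R (V c)) (hne : ∃ c, Through R (V c))
    (Y : Fin 3 → F) (hY : ∀ c, Y c ∈ R) (hYlt : ∀ c, (V c).valuation (Y c) < 1)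
    (hYu : ∀ c, Away R (V c) → RUnit R (Y c))
    (h0 : ∃ e, RUnit R e ∧ (V 0).valuation (Y 1 - e * Y 2 ^ (q - 1)) < 1)
    (h1 : ∃ e, RUnit R e ∧ (V 1).valuation (Y 0 - e * Y 2) < 1)
    (h2 : ∃ e, RUnit R e ∧ (V 2).valuation (Y 1 - e * Y 0 ^ (q - 1)) < 1) :
    (∃ c, ∀ c', c' ≠ c → Away R (V c')) ∨ (∀ c, Through R (V c)) := by
  have hq1 : q - 1 ≠ 0 := by omega
  -- `Through c ↔ Y c` is a nonunit
  have key : ∀ c, Through R (V c) ↔ Y c ∈ rad R := fun c => by
    constructor
    · intro h
      exact mem_rad_of_val_lt h.le (hY c) (hYlt c)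
    · intro h
      rcases hta c with ht | ha
      · exact ht
      · exact (h.2 (hYu c ha)).elim
  have hA : ∀ c, ¬ Through R (V c) → Away R (V c) := fun c h => (hta c).resolve_left h
  -- the three implications
  have i0 : Through R (V 0) → (Through R (V 1) ↔ Through R (V 2)) := fun h => by
    obtain ⟨e, he, hlt⟩ := h0
    have hmem : Y 1 - e * Y 2 ^ (q - 1) ∈ rad R :=
      mem_rad_of_val_lt h.le (R.sub_mem (hY 1) (R.mul_mem he.mem (R.pow_mem (hY 2) _))) hlt
    rw [key 1, key 2, mem_rad_iff_of_sub hadd hmem, unit_mul_pow_mem_rad_iff he (hY 2) hq1]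
  have i1 : Through R (V 1) → (Through R (V 0) ↔ Through R (V 2)) := fun h => by
    obtain ⟨e, he, hlt⟩ := h1
    have hmem : Y 0 - e * Y 2 ^ 1 ∈ rad R := by
      rw [pow_one]
      exact mem_rad_of_val_lt h.le (R.sub_mem (hY 0) (R.mul_mem he.mem (hY 2))) hlt
    rw [key 0, key 2, mem_rad_iff_of_sub hadd hmem, unit_mul_pow_mem_rad_iff he (hY 2) one_ne_zero]
  have i2 : Through R (V 2) → (Through R (V 1) ↔ Through R (V 0)) := fun h => by
    obtain ⟨e, he, hlt⟩ := h2
    have hmem : Y 1 - e * Y 0 ^ (q - 1) ∈ rad R :=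
      mem_rad_of_val_lt h.le (R.sub_mem (hY 1) (R.mul_mem he.mem (R.pow_mem (hY 0) _))) hlt
    rw [key 1, key 0, mem_rad_iff_of_sub hadd hmem, unit_mul_pow_mem_rad_iff he (hY 0) hq1]
  have hne' : Through R (V 0) ∨ Through R (V 1) ∨ Through R (V 2) := by
    obtain ⟨c, hc⟩ := hne
    fin_cases c
    · exact Or.inl hc
    · exact Or.inr (Or.inl hc)
    · exact Or.inr (Or.inr hc)
  by_cases t0 : Through R (V 0) <;> by_cases t1 : Through R (V 1) <;>
    by_cases t2 : Through R (V 2)
  · right
    intro c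
    fin_cases c
    · exact t0
    · exact t1
    · exact t2
  · exact (t2 ((i0 t0).1 t1)).elim
  · exact (t1 ((i0 t0).2 t2)).elim
  · left
    refine ⟨0, fun c' hc' => ?_⟩
    fin_cases c'
    · exact (hc' rfl).elim
    · exact hA 1 t1
    · exact hA 2 t2
  · exact (t0 ((i1 t1).2 t2)).elim
  · left
    refine ⟨1, fun c' hc' => ?_⟩
    fin_cases c'
    · exact hA 0 t0
    · exact (hc' rfl).elim
    · exact hA 2 t2
  · left
    refine ⟨2, fun c' hc' => ?_⟩
    fin_cases c'
    · exact hA 0 t0
    · exact hA 1 t1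
    · exact (hc' rfl).elim
  · rcases hne' with h | h | h
    · exact (t0 h).elim
    · exact (t1 h).elim
    · exact (t2 h).elim

/-- **Separation**: a function taking different values on two components at `R`. -/
theorem away_of_values {V W : ValuationSubring F} {R : Subring F}
    (hadd : ∀ a ∈ rad R, ∀ b ∈ rad R, a + b ∈ rad R)
    (hW : Through R W ∨ Away R W) (hV : Through R V) {f a b : F} (hf : f ∈ R) (ha : a ∈ R)
    (hb : b ∈ R) (hab : RUnit R (a - b)) (h1 : Through R V → f - a ∈ rad R)
    (h2 : Through R W → f - b ∈ rad R) : Away R W := by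
  rcases hW with hW | hW
  · exfalso
    have := hadd _ (h2 hW) _ (neg_mem_rad (h1 hV))
    have e : f - b + -(f - a) = a - b := by ring
    rw [e] at this
    exact this.2 hab
  · exact hW

end LQ

end Fermat.Agent.S36.BP.Build
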