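/-
S36, block BP/Build, task BUILD-CH (helper167): charts and maps of fields.
-/
import Mathlib
import Fermat.Agent.S18.Defs
import Fermat.Agent.S18.Chart.Const

set_option autoImplicit false

noncomputable section

namespace Fermat.Agent.S36.BP.Build

open Fermat.Agent.S18 Polynomial

section CH

variable {K₀ F₀ F : Type*} [Field K₀] [Field F₀] [Field F] [Algebra K₀ F₀] [Algebra K₀ F]

/-- `A₀[ι x] = ι (A₀[x])`. -/
theorem mem_polyRing_map_iff (ι : F₀ →ₐ[K₀] F) (A₀ : Subring K₀) (x : F₀) (y : F) :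
    y ∈ polyRing A₀ (ι x) ↔ ∃ y₀ ∈ polyRing A₀ x, ι y₀ = y := by
  rw [mem_polyRing_iff]
  constructor
  · rintro ⟨p, hp, rfl⟩
    exact ⟨aeval x p, (mem_polyRing_iff A₀ x _).2 ⟨p, hp, rfl⟩, (aeval_algHom_apply ι x p).symm⟩
  · rintro ⟨y₀, hy₀, rfl⟩
    obtain ⟨p, hp, rfl⟩ := (mem_polyRing_iff A₀ x _).1 hy₀
    exact ⟨p, hp, aeval_algHom_apply ι x p⟩

/-- the image of an element of the chart lies in the chart of the image. -/
theorem map_mem_chart (ι : F₀ →ₐ[K₀] F) (A₀ : Subring K₀) (x c : F₀) (hc : c ∈ chart A₀ x) :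
    ι c ∈ chart A₀ (ι x) := by
  rw [mem_chart_iff_isIntegral] at hc ⊢
  obtain ⟨p, hp, hpc⟩ := hc
  let φ : polyRing A₀ x →+* polyRing A₀ (ι x) :=
    { toFun := fun r => ⟨ι r, (mem_polyRing_map_iff ι A₀ x _).2 ⟨r, r.2, rfl⟩⟩
      map_one' := Subtype.ext (by simp)
      map_mul' := fun a b => Subtype.ext (by simp)
      map_zero' := Subtype.ext (by simp)
      map_add' := fun a b => Subtype.ext (by simp) }
  refine ⟨p.map φ, hp.map φ, ?_⟩
  rw [eval₂_map]
  have e : (algebraMap (polyRing A₀ (ι x)) F).comp φ =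
      (ι : F₀ →+* F).comp (algebraMap (polyRing A₀ x) F₀) := RingHom.ext fun r => rfl
  rw [e]
  have h2 := Polynomial.hom_eval₂ p (algebraMap (polyRing A₀ x) F₀) (ι : F₀ →+* F) c
  rw [hpc, map_zero] at h2
  exact h2.symm

/-- the chart of `ι x` upstairs is the integral closure of the chart of `x` downstairs. -/
theorem mem_chart_map_iff (ι : F₀ →ₐ[K₀] F) (A₀ : Subring K₀) (x : F₀) (z : F) :
    z ∈ chart A₀ (ι x) ↔ IsIntegral ((chart A₀ x).map (ι : F₀ →+* F)) z := by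
  constructor
  · intro hz
    rw [mem_chart_iff_isIntegral] at hz
    refine isIntegral_of_forall_exists_algebraMap (fun r => ?_) hz
    obtain ⟨y₀, hy₀, hy⟩ := (mem_polyRing_map_iff ι A₀ x _).1 r.2
    exact ⟨⟨r.1, ⟨y₀, polyRing_le_chart A₀ x hy₀, hy⟩⟩, rfl⟩
  · intro hz
    apply mem_chart_of_isIntegral_chart
    refine isIntegral_of_forall_exists_algebraMap (fun r => ?_) hz
    obtain ⟨c, hc, hcr⟩ := r.2
    refine ⟨⟨r.1, ?_⟩, rfl⟩
    rw [← hcr]
    exact map_mem_chart ι A₀ x c hc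

/-- `A₀[x'] ⊆ chart A₀ x` as soon as `x' ∈ chart A₀ x`. -/
theorem polyRing_le_chart_of_mem (A₀ : Subring K₀) {x x' : F} (h : x' ∈ chart A₀ x) :
    polyRing A₀ x' ≤ chart A₀ x := by
  intro y hy
  obtain ⟨p, hp, rfl⟩ := (mem_polyRing_iff A₀ x' y).1 hy
  rw [aeval_eq_sum_range]
  refine sum_mem fun i _ => ?_
  rw [Algebra.smul_def]
  refine mul_mem (polyRing_le_chart A₀ x ?_) (pow_mem h i)
  refine (mem_polyRing_iff A₀ x _).2 ⟨C (p.coeff i), fun j => ?_, by simp⟩
  rw [coeff_C]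
  split_ifs
  · exact hp i
  · exact A₀.zero_mem

theorem chart_le_of_mem (A₀ : Subring K₀) {x x' : F} (h : x' ∈ chart A₀ x) :
    chart A₀ x' ≤ chart A₀ x := by
  intro z hz
  rw [mem_chart_iff_isIntegral] at hz
  apply mem_chart_of_isIntegral_chart
  exact isIntegral_of_forall_exists_algebraMap
    (fun r => ⟨⟨r.1, polyRing_le_chart_of_mem A₀ h r.2⟩, rfl⟩) hz

/-- two coordinates which are integral over each other have the same chart. -/
theorem chart_eq_of_mem (A₀ : Subring K₀) {x x' : F} (h : x' ∈ chart A₀ x)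
    (h' : x ∈ chart A₀ x') : chart A₀ x = chart A₀ x' :=
  le_antisymm (chart_le_of_mem A₀ h') (chart_le_of_mem A₀ h)

end CH

end Fermat.Agent.S36.BP.Build
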