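/-
S36, block BP/Build, node TA: the local rings `locSub B 𝔫` of a chart `B` versus a vertical
valuation `W`: `Away`, `Through`, and density of a subfield.
-/
import Mathlib
import Fermat.Agent.S18.Defs
import Fermat.Agent.S36.BP.Defs
import Fermat.Agent.S36.BP.Loc.Basic

set_option autoImplicit false

noncomputable section

namespace Fermat.Agent.S36.BP.Build

open Fermat.Agent.S18 Polynomial

variable {F : Type*} [Field F]

theorem away_of_not_le {B : Subring F} {𝔫 : Ideal B} [𝔫.IsPrime] {W : ValuationSubring F}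
    (h : ∃ b : B, W.valuation (b : F) < 1 ∧ b ∉ 𝔫) : Away (locSub B 𝔫) W := by
  obtain ⟨b, hb, hbn⟩ := h
  exact ⟨(b : F), ⟨coe_ne_zero_of_notMem hbn, le_locSub b.2, inv_mem_locSub hbn⟩, hb⟩

/-- an element of `B` outside `𝔫` is a unit of `W`. -/
theorem val_eq_one_of_notMem {B : Subring F} {𝔫 : Ideal B} {W : ValuationSubring F}
    (hle : ∀ b ∈ B, b ∈ W) (hP : ∀ b : B, W.valuation (b : F) < 1 → b ∈ 𝔫) {s : B}
    (hs : s ∉ 𝔫) : W.valuation (s : F) = 1 := by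
  have h1 : W.valuation (s : F) ≤ 1 := (W.valuation_le_one_iff _).2 (hle _ s.2)
  rcases lt_or_eq_of_le h1 with h | h
  · exact absurd (hP s h) hs
  · exact h

theorem through_of_le {B : Subring F} {𝔫 : Ideal B} [𝔫.IsMaximal] {W : ValuationSubring F}
    (hle : ∀ b ∈ B, b ∈ W) (hP : ∀ b : B, W.valuation (b : F) < 1 → b ∈ 𝔫)
    (hloc : ∀ y ∈ W, ∃ s ∈ B, W.valuation s = 1 ∧ s * y ∈ B)
    (hreg : ∃ t ∈ 𝔫, ∀ y ∈ 𝔫, ∃ s : B, s ∉ 𝔫 ∧ ∃ r : B,
      W.valuation ((s : F) * (y : F) - (r : F) * (t : F)) < 1) :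
    Through (locSub B 𝔫) W := by
  refine ⟨?_, ?_, ?_⟩
  · rintro r ⟨a, s, hs, e⟩
    have h1 := val_eq_one_of_notMem hle hP hs
    rw [← W.valuation_le_one_iff]
    have h2 : W.valuation r = W.valuation (a : F) := by
      rw [← e, map_mul, h1, mul_one]
    rw [h2]
    exact (W.valuation_le_one_iff _).2 (hle _ a.2)
  · intro y hy
    obtain ⟨s, hs, h1, h2⟩ := hloc y hy
    exact ⟨s, le_locSub hs, h1, le_locSub h2⟩
  · obtain ⟨t, ht, H⟩ := hreg
    refine ⟨(t : F), coe_mem_rad_locSub ht, ?_⟩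
    intro y hy
    obtain ⟨a, s', ha, hs', e⟩ := mem_rad_locSub_iff.mp hy
    obtain ⟨s, hs, r, hr⟩ := H a ha
    have hs0 := coe_ne_zero_of_notMem hs
    have hs'0 := coe_ne_zero_of_notMem hs'
    have v1 := val_eq_one_of_notMem hle hP hs
    have v2 := val_eq_one_of_notMem hle hP hs'
    refine ⟨(r : F) * ((s : F)⁻¹ * (s' : F)⁻¹), ?_, ?_⟩
    · exact (locSub B 𝔫).mul_mem (le_locSub r.2)
        ((locSub B 𝔫).mul_mem (inv_mem_locSub hs) (inv_mem_locSub hs'))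
    · have e2 : y - (r : F) * ((s : F)⁻¹ * (s' : F)⁻¹) * (t : F)
          = ((s : F) * (a : F) - (r : F) * (t : F)) * ((s : F)⁻¹ * (s' : F)⁻¹) := by
        rw [← e]
        field_simp
      rw [e2, map_mul, map_mul, map_inv₀, map_inv₀, v1, v2]
      simpa using hr

/-- density passes from the chart to its local rings. -/
theorem dense_loc {B : Subring F} {𝔫 : Ideal B} [𝔫.IsPrime] {W : ValuationSubring F}
    (hle : ∀ b ∈ B, b ∈ W) (hP : ∀ b : B, W.valuation (b : F) < 1 → b ∈ 𝔫) {E : Subfield F}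
    (hd : ∀ b ∈ B, ∃ b' ∈ B, b' ∈ E ∧ W.valuation (b' - b) < 1) :
    ∀ r ∈ locSub B 𝔫, ∃ r' ∈ locSub B 𝔫, r' ∈ E ∧ W.valuation (r' - r) < 1 := by
  rintro r ⟨a, s, hs, e⟩
  obtain ⟨a', ha'B, ha'E, ha'⟩ := hd a a.2
  obtain ⟨s', hs'B, hs'E, hs'⟩ := hd s s.2
  have hs'n : (⟨s', hs'B⟩ : B) ∉ 𝔫 := by
    intro hmem
    have h1 : (⟨s', hs'B⟩ : B) - s ∈ 𝔫 := hP _ (by simpa using hs')
    have h2 : s = (⟨s', hs'B⟩ : B) - ((⟨s', hs'B⟩ : B) - s) := by ring
    rw [h2] at hs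
    exact hs (𝔫.sub_mem hmem h1)
  have hs0 := coe_ne_zero_of_notMem hs
  have hs'0 : s' ≠ 0 := coe_ne_zero_of_notMem hs'n
  have v1 := val_eq_one_of_notMem hle hP hs
  have v2 : W.valuation s' = 1 := val_eq_one_of_notMem hle hP hs'n
  have va : W.valuation (a : F) ≤ 1 := (W.valuation_le_one_iff _).2 (hle _ a.2)
  refine ⟨a' * s'⁻¹, ?_, E.mul_mem ha'E (E.inv_mem hs'E), ?_⟩
  · exact (locSub B 𝔫).mul_mem (le_locSub ha'B) (inv_mem_locSub hs'n)
  · have e2 : a' * s'⁻¹ - r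
        = ((a' - (a : F)) * (s : F) - (a : F) * (s' - (s : F))) * ((s : F)⁻¹ * s'⁻¹) := by
      rw [← e]
      field_simp
      ring
    rw [e2, map_mul, map_mul, map_inv₀, map_inv₀, v1, v2]
    simp only [inv_one, mul_one]
    refine Valuation.map_sub_lt _ ?_ ?_
    · rw [map_mul, v1, mul_one]
      exact ha'
    · rw [map_mul]
      exact lt_of_le_of_lt (mul_le_of_le_one_left' va) hs'

end Fermat.Agent.S36.BP.Build
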