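/-
S36, block BP/Build, task BUILD-L0 (helper266): consequences of `S18.IsChart` at the good level.
`B₀ / ϖ` is integrally closed in the residue field of `Ow`; its maximal ideals are locally principal;
iterated `q`-expansion principle.
-/
import Mathlib
import Fermat.Agent.S18.Defs
import Fermat.Agent.S18.Chart.Unif
import Fermat.Agent.S18.Abs.Bridge2
import Fermat.Agent.S36.BP.Defs

set_option autoImplicit false

noncomputable section

namespace Fermat.Agent.S36.BP.Build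

open Fermat.Agent.S18 Polynomial

section L0

variable {F₀ : Type*} [Field F₀] {Ow : ValuationSubring F₀} {ϖ : F₀} {B₀ : Subring F₀}

namespace Level0

theorem val_unif_lt_one (hU : IsUnif Ow ϖ) : Ow.valuation ϖ < 1 := by
  have h1 : ¬ Ow.valuation ϖ⁻¹ ≤ 1 := fun h => hU.inv_notMem ((Ow.valuation_le_one_iff _).1 h)
  rw [not_le, map_inv₀] at h1
  by_contra h2
  rw [not_lt] at h2
  exact absurd (inv_le_one_of_one_le₀ h2) (not_le.2 h1)

theorem val_lt_one_of_div_mem (hU : IsUnif Ow ϖ) {y : F₀} (hy : y / ϖ ∈ Ow) :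
    Ow.valuation y < 1 := by
  have h1 : y = y / ϖ * ϖ := by
    rw [div_mul_cancel₀ _ hU.ne_zero]
  rw [h1, map_mul]
  calc Ow.valuation (y / ϖ) * Ow.valuation ϖ ≤ 1 * Ow.valuation ϖ :=
        mul_le_mul_left ((Ow.valuation_le_one_iff _).2 hy) _
    _ < 1 := by rw [one_mul]; exact val_unif_lt_one hU

theorem div_mem_of_val_lt_one (hU : IsUnif Ow ϖ) {y : F₀} (hy : Ow.valuation y < 1) :
    y / ϖ ∈ Ow := by
  by_cases hy0 : y = 0
  · rw [hy0, zero_div]; exact Ow.zero_mem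
  · refine hU.div_mem ((Ow.valuation_le_one_iff _).1 hy.le) fun h => ?_
    have h1 := (Ow.valuation_le_one_iff _).2 h
    rw [map_inv₀] at h1
    have h2 : Ow.valuation y ≠ 0 := (Valuation.ne_zero_iff _).2 hy0
    have h3 : 1 ≤ Ow.valuation y := (inv_le_one₀ (zero_lt_iff.2 h2)).1 h1
    exact absurd hy (not_lt.2 h3)

/-- an element of `B₀` of positive valuation is a multiple of `ϖ` in `B₀`. -/
theorem mem_span_of_val_lt_one (hU : IsUnif Ow ϖ) (h : IsChart Ow ϖ B₀) (e : B₀)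
    (he : Ow.valuation (e : F₀) < 1) : e ∈ Ideal.span {(⟨ϖ, h.unif_mem⟩ : B₀)} := by
  rw [Ideal.mem_span_singleton']
  refine ⟨⟨_, h.qep _ e.2 (div_mem_of_val_lt_one hU he)⟩, Subtype.ext ?_⟩
  show (e : F₀) / ϖ * ϖ = e
  rw [div_mul_cancel₀ _ hU.ne_zero]

theorem val_lt_one_of_mem_span (hU : IsUnif Ow ϖ) (h : IsChart Ow ϖ B₀) (e : B₀)
    (he : e ∈ Ideal.span {(⟨ϖ, h.unif_mem⟩ : B₀)}) : Ow.valuation (e : F₀) < 1 := by
  obtain ⟨a, rfl⟩ := Ideal.mem_span_singleton'.1 he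
  apply val_lt_one_of_div_mem hU
  show (a : F₀) * ϖ / ϖ ∈ Ow
  rw [mul_div_cancel_right₀ _ hU.ne_zero]
  exact h.le _ a.2

/-- a root modulo the maximal ideal of a monic polynomial with integral coefficients is integral. -/
theorem mem_of_val_aeval_lt_one (h : ∀ b ∈ B₀, b ∈ Ow) (y : F₀) (p : B₀[X]) (hp : p.Monic)
    (hy : Ow.valuation (aeval y p) < 1) : y ∈ Ow := by
  let ι : B₀ →+* Ow := Subring.inclusion (show B₀ ≤ Ow.toSubring from h)
  have hc : aeval y p ∈ Ow := (Ow.valuation_le_one_iff _).1 hy.le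
  have hdeg : 0 < p.natDegree := by
    by_contra hd
    have h0 : p.natDegree = 0 := by omega
    have h1 : p = 1 := by
      rw [eq_C_of_natDegree_eq_zero h0]
      have : p.coeff 0 = 1 := by
        have := hp.coeff_natDegree
        rwa [h0] at this
      rw [this, C_1]
    rw [h1, map_one, map_one] at hy
    exact lt_irrefl _ hy
  have hmon : (p.map ι - C (⟨aeval y p, hc⟩ : Ow)).Monic := by
    apply (hp.map ι).sub_of_left
    refine lt_of_le_of_lt degree_C_le ?_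
    rw [degree_eq_natDegree (hp.map ι).ne_zero, hp.natDegree_map]
    exact_mod_cast hdeg
  have hint : IsIntegral Ow y := by
    refine ⟨_, hmon, ?_⟩
    rw [eval₂_sub, eval₂_C, eval₂_map]
    exact sub_self _
  obtain ⟨y', hy'⟩ := IsIntegrallyClosed.algebraMap_eq_of_integral hint
  rw [← hy']
  exact y'.2

end Level0

open Level0

/-- `B₀ / ϖ` is integrally closed in the residue field of `Ow`. -/
theorem IsChart.normal (hU : IsUnif Ow ϖ) (h : IsChart Ow ϖ B₀) (y : F₀) (p : B₀[X])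
    (hp : p.Monic) (hy : Ow.valuation (aeval y p) < 1) : ∃ b ∈ B₀, Ow.valuation (y - b) < 1 := by
  have hyO : y ∈ Ow := mem_of_val_aeval_lt_one h.le y p hp hy
  have hded := h.ded ⟨ϖ, h.unif_mem⟩ rfl
  obtain ⟨b₂, hb₂, hb₂0, hb₂inv, hb₁⟩ := h.loc y hyO
  set π : B₀ := ⟨ϖ, h.unif_mem⟩ with hπ
  set D := B₀ ⧸ Ideal.span {π} with hD
  set mk : B₀ →+* D := Ideal.Quotient.mk (Ideal.span {π}) with hmk
  set β₂ : B₀ := ⟨b₂, hb₂⟩ with hβ₂
  set β₁ : B₀ := ⟨b₂ * y, hb₁⟩ with hβ₁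
  -- the homogenised equation
  have he : ((eval β₁ (p.scaleRoots β₂) : B₀) : F₀) = b₂ ^ p.natDegree * aeval y p := by
    have h1 := scaleRoots_eval₂_mul (p := p) (algebraMap B₀ F₀) y β₂
    have h2 : eval₂ (algebraMap B₀ F₀) (algebraMap B₀ F₀ β₁) (p.scaleRoots β₂) =
        algebraMap B₀ F₀ (eval β₁ (p.scaleRoots β₂)) := eval₂_at_apply _ _
    exact h2.symm.trans h1
  have he' : mk (eval β₁ (p.scaleRoots β₂)) = 0 := by
    rw [hmk, Ideal.Quotient.eq_zero_iff_mem]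
    apply mem_span_of_val_lt_one hU h
    rw [he, map_mul]
    calc Ow.valuation (b₂ ^ p.natDegree) * Ow.valuation (aeval y p)
        ≤ 1 * Ow.valuation (aeval y p) :=
          mul_le_mul_left ((Ow.valuation_le_one_iff _).2 (Ow.pow_mem (h.le _ hb₂) _)) _
      _ < 1 := by rw [one_mul]; exact hy
  have hmk₂ : mk β₂ ≠ 0 := by
    intro h0
    rw [hmk, Ideal.Quotient.eq_zero_iff_mem] at h0
    have h1 := val_lt_one_of_mem_span hU h _ h0
    have h2 := (Ow.valuation_le_one_iff _).2 hb₂inv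
    rw [map_inv₀] at h2
    have h3 : Ow.valuation b₂ ≠ 0 := (Valuation.ne_zero_iff _).2 hb₂0
    exact absurd h1 (not_lt.2 ((inv_le_one₀ (zero_lt_iff.2 h3)).1 h2))
  -- integrality of the quotient in the fraction field of `D`
  set f := algebraMap D (FractionRing D) with hf
  have hf₂ : f (mk β₂) ≠ 0 := by
    rw [hf]; simpa using hmk₂
  have hint : IsIntegral D (f (mk β₁) / f (mk β₂)) := by
    refine ⟨p.map mk, hp.map mk, ?_⟩
    have h1 := scaleRoots_eval₂_mul (p := p.map mk) f (f (mk β₁) / f (mk β₂)) (mk β₂)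
    rw [mul_div_cancel₀ _ hf₂, eval₂_at_apply,
      ← map_scaleRoots p β₂ mk (by rw [hp.leadingCoeff, map_one]; exact one_ne_zero), eval_map,
      eval₂_at_apply, he', map_zero] at h1
    exact (mul_eq_zero.1 h1.symm).resolve_left (pow_ne_zero _ hf₂)
  obtain ⟨wbar, hw⟩ := IsIntegrallyClosed.algebraMap_eq_of_integral hint
  obtain ⟨w, rfl⟩ := Ideal.Quotient.mk_surjective wbar
  have h3 : mk (β₁ - w * β₂) = 0 := by
    apply IsFractionRing.injective D (FractionRing D)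
    rw [map_zero, map_sub, map_mul, map_sub, map_mul]
    change f (mk β₁) - f (mk w) * f (mk β₂) = 0
    have : f (mk w) = f (mk β₁) / f (mk β₂) := hw
    rw [this, div_mul_cancel₀ _ hf₂, sub_self]
  rw [hmk, Ideal.Quotient.eq_zero_iff_mem] at h3
  have h4 := val_lt_one_of_mem_span hU h _ h3
  refine ⟨w, w.2, ?_⟩
  have h5 : y - (w : F₀) = b₂⁻¹ * ((β₁ - w * β₂ : B₀) : F₀) := by
    show y - (w : F₀) = b₂⁻¹ * (b₂ * y - (w : F₀) * b₂)
    field_simp
  rw [h5, map_mul]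
  calc Ow.valuation b₂⁻¹ * Ow.valuation ((β₁ - w * β₂ : B₀) : F₀)
      ≤ 1 * Ow.valuation ((β₁ - w * β₂ : B₀) : F₀) :=
        mul_le_mul_left ((Ow.valuation_le_one_iff _).2 hb₂inv) _
    _ < 1 := by rw [one_mul]; exact h4

/-- the maximal ideals of `B₀ / ϖ` are locally principal. -/
theorem IsChart.reg (hU : IsUnif Ow ϖ) (h : IsChart Ow ϖ B₀) (𝔫 : Ideal B₀) [𝔫.IsMaximal]
    (hϖ : ∀ b : B₀, Ow.valuation (b : F₀) < 1 → b ∈ 𝔫) :
    ∃ t ∈ 𝔫, ∀ y ∈ 𝔫, ∃ s : B₀, s ∉ 𝔫 ∧ ∃ r : B₀,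
      Ow.valuation ((s : F₀) * (y : F₀) - (r : F₀) * (t : F₀)) < 1 := by
  obtain ⟨t, ht, hgen⟩ := h.regAt 𝔫 inferInstance (hϖ ⟨ϖ, h.unif_mem⟩ (val_unif_lt_one hU))
  refine ⟨t, ht, fun y hy => ?_⟩
  obtain ⟨s, hs, hsy⟩ := hgen y hy
  obtain ⟨a, r, har⟩ := Ideal.mem_span_pair.1 hsy
  refine ⟨s, hs, r, ?_⟩
  have h1 : (s : F₀) * (y : F₀) - (r : F₀) * (t : F₀) = (a : F₀) * ϖ := by
    have := congrArg (Subtype.val : B₀ → F₀) har
    have h2 : (a : F₀) * ϖ + (r : F₀) * (t : F₀) = (s : F₀) * (y : F₀) := this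
    rw [← h2]; ring
  rw [h1]
  apply val_lt_one_of_div_mem hU
  rw [mul_div_cancel_right₀ _ hU.ne_zero]
  exact h.le _ a.2

/-- iterated `q`-expansion principle. -/
theorem IsChart.qep_pow (hU : IsUnif Ow ϖ) (h : IsChart Ow ϖ B₀) (k : ℕ) {b : F₀} (hb : b ∈ B₀)
    (hk : b / ϖ ^ k ∈ Ow) : b / ϖ ^ k ∈ B₀ := by
  induction k with
  | zero => simpa using hb
  | succ k ih =>
    have h1 : b / ϖ ^ k = ϖ * (b / ϖ ^ (k + 1)) := by
      have := hU.ne_zero
      field_simp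
      ring
    have h2 : b / ϖ ^ k ∈ B₀ := ih (by rw [h1]; exact Ow.mul_mem _ _ hU.mem hk)
    have h3 : b / ϖ ^ (k + 1) = b / ϖ ^ k / ϖ := by
      rw [pow_succ, div_div]
    rw [h3]
    apply h.qep _ h2
    rw [← h3]
    exact hk

end L0

end Fermat.Agent.S36.BP.Build
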