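/-
S36, block BP/Build, task BUILD-UP1: the components of the upper level are copies of the good model
(density and regularity along an embedding `ι : F₀ → F`).
-/
import Mathlib
import Fermat.Agent.S18.Defs
import Fermat.Agent.S18.Chart.Const
import Fermat.Agent.S36.BP.Defs
import Fermat.Agent.S36.BP.Cong
import Fermat.Agent.S36.BP.Build.Level0

set_option autoImplicit false

noncomputable section

namespace Fermat.Agent.S36.BP.Build

open Fermat.Agent.S18 Polynomial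

/-! ### Auxiliary lemmas -/
section Aux

variable {F : Type*} [Field F]

/-- polynomial congruence modulo the maximal ideal of `W`. -/
theorem cong_aeval_of_le {W : ValuationSubring F} {R : Subring F} (hR : ∀ b ∈ R, b ∈ W) (p : R[X])
    {x y : F} (hy : y ∈ W) (h : Cong W x y) : Cong W (aeval x p) (aeval y p) := by
  induction p using Polynomial.induction_on' with
  | add p q hp hq =>
    rw [map_add, map_add]
    exact hp.add hq
  | monomial n a =>
    rw [aeval_monomial, aeval_monomial]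
    exact (h.pow ((W.valuation_le_one_iff _).mpr hy) n).mul_left
      ((W.valuation_le_one_iff _).mpr (hR _ a.2))

/-- an element integral over a subring of `W` lies in `W`. -/
theorem mem_of_isIntegral_of_le {W : ValuationSubring F} {R : Subring F} (hR : ∀ b ∈ R, b ∈ W)
    {b : F} (hb : IsIntegral R b) : b ∈ W := by
  have h1 : IsIntegral W b :=
    isIntegral_of_forall_exists_algebraMap (fun r => ⟨⟨_, hR _ r.2⟩, rfl⟩) hb
  obtain ⟨y, rfl⟩ := (IsIntegrallyClosed.isIntegral_iff (R := W) (K := F)).mp h1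
  exact y.2

end Aux

section UP

variable {F₀ F : Type*} [Field F₀] [Field F] (ι : F₀ →+* F)
  {Ow : ValuationSubring F₀} {ϖ : F₀} {B₀ : Subring F₀}

/-- abstract density lemma: `B` integral over `B₀'`, residue degree one over `E`, `B₀'` normal
modulo `W`. -/
theorem dense_of_integral {W : ValuationSubring F} {B B₀' : Subring F} {E : Subfield F}
    (hint : ∀ b ∈ B, IsIntegral B₀' b) (hB₀W : ∀ b ∈ B₀', b ∈ W)
    (hf : ∀ y ∈ W, ∃ y' ∈ E, W.valuation (y' - y) < 1)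
    (hnorm : ∀ y ∈ E, ∀ p : B₀'[X], p.Monic → W.valuation (aeval y p) < 1 →
      ∃ b₀ ∈ B₀', W.valuation (y - b₀) < 1) :
    ∀ b ∈ B, ∃ b₀ ∈ B₀', W.valuation (b - b₀) < 1 := by
  intro b hb
  have hbW : b ∈ W := mem_of_isIntegral_of_le hB₀W (hint b hb)
  obtain ⟨p, hp, hpb⟩ := hint b hb
  obtain ⟨y', hy'E, hy'⟩ := hf b hbW
  have h1 : Cong W (aeval y' p) (aeval b p) := cong_aeval_of_le hB₀W p hbW hy'
  have h2 : aeval b p = 0 := hpb
  rw [h2, cong_iff, sub_zero] at h1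
  obtain ⟨b₀, hb₀, hb₀'⟩ := hnorm y' hy'E p hp h1
  exact ⟨b₀, hb₀, (Cong.symm (V := W) hy').trans hb₀'⟩

variable {ι}

theorem mem_iff_of_comap_eq {W : ValuationSubring F} (hW : W.comap ι = Ow) (z : F₀) :
    z ∈ Ow ↔ ι z ∈ W := by
  rw [← hW]
  exact ValuationSubring.mem_comap

theorem val_lt_one_iff_of_comap_eq {W : ValuationSubring F} (hW : W.comap ι = Ow) (z : F₀) :
    Ow.valuation z < 1 ↔ W.valuation (ι z) < 1 := by
  rcases eq_or_ne z 0 with rfl | hz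
  · simp
  · have hz' : ι z ≠ 0 := (map_ne_zero ι).mpr hz
    rw [valuation_lt_one_iff_inv_not_mem hz, valuation_lt_one_iff_inv_not_mem hz',
      mem_iff_of_comap_eq hW, map_inv₀]

variable (ι) in
/-- pull back a polynomial over `ι B₀` to `B₀`. -/
def pullPoly (B₀ : Subring F₀) (p : (B₀.map ι)[X]) : B₀[X] :=
  p.map ((B₀.equivMapOfInjective ι ι.injective).symm : B₀.map ι →+* B₀)

theorem pullPoly_monic {p : (B₀.map ι)[X]} (hp : p.Monic) : (pullPoly ι B₀ p).Monic :=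
  hp.map _

theorem upDense_comp_symm_eq :
    (ι.comp B₀.subtype).comp
      ((B₀.equivMapOfInjective ι ι.injective).symm : B₀.map ι →+* B₀) = (B₀.map ι).subtype := by
  ext x
  obtain ⟨y, rfl⟩ := (B₀.equivMapOfInjective ι ι.injective).surjective x
  simp

theorem eval₂_pullPoly (p : (B₀.map ι)[X]) (z : F) :
    eval₂ (ι.comp B₀.subtype) z (pullPoly ι B₀ p) = aeval z p := by
  rw [pullPoly, eval₂_map, upDense_comp_symm_eq]
  rfl

theorem map_aeval_pullPoly (p : (B₀.map ι)[X]) (y : F₀) :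
    ι (aeval y (pullPoly ι B₀ p)) = aeval (ι y) p := by
  rw [← eval₂_pullPoly, aeval_def, hom_eval₂]
  rfl

variable (ι)

/-- **(DENSE)** `ι B₀ → B / P_W` is onto if `f(W / Ow) = 1`. -/
theorem dense_of_level0 (hU : IsUnif Ow ϖ) (h₀ : IsChart Ow ϖ B₀) {W : ValuationSubring F}
    (hW : W.comap ι = Ow) (hf : ∀ y ∈ W, ∃ y' : F₀, W.valuation (ι y' - y) < 1)
    {B : Subring F} (hint : ∀ b ∈ B, IsIntegral (B₀.map ι) b) :
    ∀ b ∈ B, ∃ b₀ ∈ B₀, W.valuation (b - ι b₀) < 1 := by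
  intro b hb
  obtain ⟨b', ⟨b₀, hb₀, rfl⟩, hb'⟩ := dense_of_integral (W := W) (B := B) (B₀' := B₀.map ι)
    (E := ι.fieldRange) hint
    (by
      rintro _ ⟨b₀, hb₀, rfl⟩
      exact (mem_iff_of_comap_eq hW b₀).mp (h₀.le b₀ hb₀))
    (fun y hy => by
      obtain ⟨y', hy'⟩ := hf y hy
      exact ⟨ι y', ⟨y', rfl⟩, hy'⟩)
    (by
      rintro _ ⟨y₀, rfl⟩ p hp hlt
      rw [← map_aeval_pullPoly, ← val_lt_one_iff_of_comap_eq hW] at hlt
      obtain ⟨b₀, hb₀, hb₀'⟩ := IsChart.normal hU h₀ y₀ (pullPoly ι B₀ p) (pullPoly_monic hp) hlt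
      refine ⟨ι b₀, ⟨b₀, hb₀, rfl⟩, ?_⟩
      rw [← map_sub, ← val_lt_one_iff_of_comap_eq hW]
      exact hb₀') b hb
  exact ⟨b₀, hb₀, hb'⟩

/-- **(REG)** the hypothesis `hreg` of `through_of_le`. -/
theorem reg_of_level0 (hU : IsUnif Ow ϖ) (h₀ : IsChart Ow ϖ B₀) {W : ValuationSubring F}
    (hW : W.comap ι = Ow) (hf : ∀ y ∈ W, ∃ y' : F₀, W.valuation (ι y' - y) < 1)
    {B : Subring F} (hint : ∀ b ∈ B, IsIntegral (B₀.map ι) b) (hle : B₀.map ι ≤ B)
    (𝔫 : Ideal B) [𝔫.IsMaximal] (hP : ∀ b : B, W.valuation (b : F) < 1 → b ∈ 𝔫) :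
    ∃ t ∈ 𝔫, ∀ y ∈ 𝔫, ∃ s : B, s ∉ 𝔫 ∧ ∃ r : B,
      W.valuation ((s : F) * (y : F) - (r : F) * (t : F)) < 1 := by
  let j : B₀ →+* B := (ι.comp B₀.subtype).codRestrict B (fun b => hle ⟨b, b.2, rfl⟩)
  have hj : ∀ b : B₀, ((j b : B) : F) = ι (b : F₀) := fun _ => rfl
  have hjint : j.IsIntegral := by
    intro b
    obtain ⟨p, hp, hpb⟩ := hint b b.2
    refine ⟨pullPoly ι B₀ p, pullPoly_monic hp, ?_⟩
    apply Subtype.ext
    have h1 : B.subtype (eval₂ j b (pullPoly ι B₀ p)) =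
        eval₂ (B.subtype.comp j) (B.subtype b) (pullPoly ι B₀ p) := hom_eval₂ _ _ _ _
    have h2 : B.subtype.comp j = ι.comp B₀.subtype := rfl
    rw [h2, Subring.subtype_apply, Subring.subtype_apply, eval₂_pullPoly] at h1
    rw [h1]
    exact hpb
  have hmax : (𝔫.comap j).IsMaximal := Ideal.isMaximal_comap_of_isIntegral_of_isMaximal' j hjint 𝔫
  obtain ⟨t₀, ht₀, hreg⟩ := IsChart.reg hU h₀ (𝔫.comap j) (fun b hb => by
    rw [Ideal.mem_comap]
    apply hP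
    rw [hj]
    exact (val_lt_one_iff_of_comap_eq hW _).mp hb)
  refine ⟨j t₀, ht₀, fun y hy => ?_⟩
  obtain ⟨y₀, hy₀, hyy₀⟩ := dense_of_level0 ι hU h₀ hW hf hint y y.2
  have hy₀n : (⟨y₀, hy₀⟩ : B₀) ∈ 𝔫.comap j := by
    rw [Ideal.mem_comap]
    have h1 : y - j ⟨y₀, hy₀⟩ ∈ 𝔫 := hP _ hyy₀
    have h2 : j ⟨y₀, hy₀⟩ = y - (y - j ⟨y₀, hy₀⟩) := by ring
    rw [h2]
    exact 𝔫.sub_mem hy h1
  obtain ⟨s₀, hs₀, r₀, hsr⟩ := hreg _ hy₀n
  refine ⟨j s₀, hs₀, j r₀, ?_⟩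
  rw [hj, hj, hj]
  have hs₀W : W.valuation (ι (s₀ : F₀)) ≤ 1 :=
    (W.valuation_le_one_iff _).mpr ((mem_iff_of_comap_eq hW _).mp (h₀.le _ s₀.2))
  have h3 : Cong W (ι (s₀ : F₀) * (y : F)) (ι (s₀ : F₀) * ι y₀) := Cong.mul_left hs₀W hyy₀
  have h4 : Cong W (ι (s₀ : F₀) * ι y₀) (ι (r₀ : F₀) * ι (t₀ : F₀)) := by
    rw [cong_iff, ← map_mul, ← map_mul, ← map_sub, ← val_lt_one_iff_of_comap_eq hW]
    exact hsr
  exact h3.trans h4

end UP

end Fermat.Agent.S36.BP.Build
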