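/-
S36, block BP/Build, node UP3 (architect helper192, proof helper286):
`V c` is the localisation of the upper chart `B` at its vertical prime `B ∩ 𝔪(V c)`.
-/
import Mathlib
import Fermat.Agent.S18.Defs
import Fermat.Agent.S18.Chart.Unif
import Fermat.Agent.S36.BP.Defs
import Fermat.Agent.S36.BP.Approx

set_option autoImplicit false

noncomputable section

namespace Fermat.Agent.S36.BP.Build

open Fermat.Agent.S18 Polynomial

section UP

variable {F₀ F : Type*} [Field F₀] [Field F] (ι : F₀ →+* F)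
  {Ow : ValuationSubring F₀} {ϖ : F₀} {B₀ : Subring F₀}

/-- integrality over the image of a subring, in terms of polynomials over `F₀`. -/
theorem upLoc_isIntegral_map_iff (T₀ : Subring F₀) (z : F) :
    IsIntegral (T₀.map ι) z ↔
      ∃ p : F₀[X], p.Monic ∧ (∀ i, p.coeff i ∈ T₀) ∧ eval₂ ι z p = 0 := by
  let g : T₀ →+* (T₀.map ι) :=
    (ι.comp T₀.subtype).codRestrict (T₀.map ι) (fun a => ⟨a, a.2, rfl⟩)
  have hg : (algebraMap (T₀.map ι) F).comp g = ι.comp T₀.subtype := by
    ext a; rfl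
  constructor
  · rintro ⟨P, hP, hP0⟩
    have hl : P ∈ Polynomial.lifts g := by
      rw [Polynomial.lifts_iff_coeff_lifts]
      intro n
      obtain ⟨a, ha, hab⟩ := (P.coeff n).2
      exact ⟨⟨a, ha⟩, Subtype.ext hab⟩
    obtain ⟨Q, hQ, -, hQm⟩ := Polynomial.lifts_and_natDegree_eq_and_monic hl hP
    refine ⟨Q.map T₀.subtype, hQm.map _, fun i => ?_, ?_⟩
    · rw [coeff_map]
      exact (Q.coeff i).2
    · rw [eval₂_map, ← hg, ← eval₂_map, hQ]
      exact hP0
  · rintro ⟨p, hp, hc, hp0⟩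
    have hsub : (↑p.coeffs : Set F₀) ⊆ T₀ := by
      intro a ha
      obtain ⟨n, -, rfl⟩ := Polynomial.mem_coeffs_iff.mp (Finset.mem_coe.mp ha)
      exact hc n
    refine ⟨(p.toSubring T₀ hsub).map g, ((monic_toSubring p T₀ hsub).2 hp).map g, ?_⟩
    rw [eval₂_map, hg, ← eval₂_map, map_toSubring]
    exact hp0

/-- a valuation subring containing a discrete valuation ring is this ring or the field. -/
theorem upLoc_eq_or_eq_top (hU : IsUnif Ow ϖ) {W : ValuationSubring F₀} (hle : Ow ≤ W) :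
    W = Ow ∨ W = ⊤ := by
  by_cases h : W ≤ Ow
  · exact Or.inl (le_antisymm h hle)
  · right
    obtain ⟨y, hyW, hy⟩ := SetLike.not_le_iff_exists.mp h
    have hyinv : y⁻¹ ∈ Ow := (Ow.mem_or_inv_mem y).resolve_left hy
    have hy0 : y ≠ 0 := by
      rintro rfl
      exact hy Ow.zero_mem
    have h1 : y⁻¹ / ϖ ∈ Ow := hU.div_mem hyinv (by rwa [inv_inv])
    have h2 : ϖ⁻¹ ∈ W := by
      have e : ϖ⁻¹ = y * (y⁻¹ / ϖ) := by
        field_simp
      rw [e]
      exact W.mul_mem _ _ hyW (hle h1)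
    rw [eq_top_iff]
    intro z _
    obtain ⟨r, hr⟩ := hU.exists_pow_mul_mem z
    have e : z = ϖ⁻¹ ^ r * (ϖ ^ r * z) := by
      rw [← mul_assoc, ← mul_pow, inv_mul_cancel₀ hU.ne_zero, one_pow, one_mul]
    rw [e]
    exact W.mul_mem _ _ (W.pow_mem h2 r) (hle hr)

variable {κ : Type*} (V : κ → ValuationSubring F)

/-- the intersection of all the extensions of `Ow` is integral over `Ow`. -/
theorem upLoc_isIntegral_of_complete (halg : ∀ z : F, ι.IsIntegralElem z) (hU : IsUnif Ow ϖ)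
    (hcomp : ∀ W : ValuationSubring F, W.comap ι = Ow → ∃ c, W = V c) {y : F}
    (hy : ∀ c, y ∈ V c) : IsIntegral (Ow.toSubring.map ι) y := by
  have key := iInf_valuationSubring_superset (K := F) (s := ((Ow.toSubring.map ι : Subring F) : Set F))
  have hmem : y ∈ (⨅ W : {W : ValuationSubring F //
      ((Ow.toSubring.map ι : Subring F) : Set F) ⊆ W.toSubring}, W.1.toSubring) := by
    rw [Subring.mem_iInf]
    rintro ⟨W, hW⟩
    show y ∈ W
    have hle : Ow ≤ W.comap ι := by
      intro a ha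
      exact hW ⟨a, ha, rfl⟩
    rcases upLoc_eq_or_eq_top hU hle with h | h
    · obtain ⟨c, rfl⟩ := hcomp W h
      exact hy c
    · -- `W` contains the image of `F₀`, and `F` is integral over it
      obtain ⟨p, hp, hp0⟩ := halg y
      have hall : ∀ a : F₀, ι a ∈ W := by
        intro a
        have : a ∈ W.comap ι := by rw [h]; trivial
        exact this
      have hint : IsIntegral W y := by
        let g : F₀ →+* W := ι.codRestrict W.toSubring hall
        refine ⟨p.map g, hp.map g, ?_⟩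
        rw [eval₂_map]
        exact hp0
      have hic : IsIntegrallyClosed W := inferInstance
      obtain ⟨w, hw⟩ := (isIntegrallyClosed_iff F).mp hic hint
      rw [← hw]
      exact w.2
  rw [key] at hmem
  have h2 : IsIntegral (Subring.closure ((Ow.toSubring.map ι : Subring F) : Set F)) y := hmem
  rwa [Subring.closure_eq] at h2

/-- clearing the denominators of an element which is integral over `Ow`. -/
theorem upLoc_exists_mul_isIntegral (h₀ : IsChart Ow ϖ B₀) {z : F}
    (hz : IsIntegral (Ow.toSubring.map ι) z) :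
    ∃ b ∈ B₀, b ≠ 0 ∧ b⁻¹ ∈ Ow ∧ IsIntegral (B₀.map ι) (ι b * z) := by
  classical
  obtain ⟨p, hp, hc, hp0⟩ := (upLoc_isIntegral_map_iff ι Ow.toSubring z).mp hz
  choose β hβB hβ0 hβinv hβ using fun i => h₀.loc (p.coeff i) (hc i)
  set b : F₀ := ∏ i ∈ Finset.range p.natDegree, β i with hb
  have hbB : b ∈ B₀ := Subring.prod_mem _ fun i _ => hβB i
  have hb0 : b ≠ 0 := Finset.prod_ne_zero_iff.mpr fun i _ => hβ0 i
  have hbinv : b⁻¹ ∈ Ow := by
    rw [hb, ← Finset.prod_inv_distrib]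
    exact Subring.prod_mem Ow.toSubring fun i _ => hβinv i
  have hbc : ∀ i < p.natDegree, b * p.coeff i ∈ B₀ := by
    intro i hi
    rw [hb, ← Finset.mul_prod_erase _ _ (Finset.mem_range.mpr hi), mul_right_comm]
    exact B₀.mul_mem (hβ i) (Subring.prod_mem _ fun j _ => hβB j)
  refine ⟨b, hbB, hb0, hbinv, (upLoc_isIntegral_map_iff ι B₀ _).mpr
    ⟨p.scaleRoots b, (monic_scaleRoots_iff b).mpr hp, fun i => ?_, ?_⟩⟩
  · rw [coeff_scaleRoots]
    rcases lt_trichotomy i p.natDegree with hi | hi | hi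
    · obtain ⟨m, hm⟩ : ∃ m, p.natDegree - i = m + 1 := ⟨p.natDegree - i - 1, by omega⟩
      rw [hm, pow_succ, ← mul_assoc, mul_right_comm, mul_comm (p.coeff i) b]
      exact B₀.mul_mem (hbc i hi) (B₀.pow_mem hbB m)
    · rw [hi, Nat.sub_self, pow_zero, mul_one, hp.coeff_natDegree]
      exact B₀.one_mem
    · rw [coeff_eq_zero_of_natDegree_lt hi, zero_mul]
      exact B₀.zero_mem
  · rw [scaleRoots_eval₂_mul, hp0, mul_zero]

/-- **(LOC)** at the upper level: `V c` is the localisation of `B` at `B ∩ 𝔪(V c)`. -/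
theorem loc_of_level0 [Finite κ] (halg : ∀ z : F, ι.IsIntegralElem z) (hU : IsUnif Ow ϖ)
    (h₀ : IsChart Ow ϖ B₀) (hcomp : ∀ W : ValuationSubring F, W.comap ι = Ow → ∃ c, W = V c)
    (hcomap : ∀ c, (V c).comap ι = Ow) (ϖ' : κ → F) (hunif : ∀ c, IsUnif (V c) (ϖ' c))
    (hinj : Function.Injective V)
    {B : Subring F} (hB : ∀ z : F, z ∈ B ↔ IsIntegral (B₀.map ι) z) :
    ∀ c, ∀ y ∈ V c, ∃ s ∈ B, (V c).valuation s = 1 ∧ s * y ∈ B := by
  classical
  intro c y hy
  rcases eq_or_ne y 0 with rfl | hy0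
  · exact ⟨1, B.one_mem, map_one _, by rw [mul_zero]; exact B.zero_mem⟩
  choose n hn using fun c' => (hunif c').exists_zpow y hy0
  let k : κ → ℤ := fun c' => if c' = c then 0 else max 0 (-n c')
  have hk0 : ∀ c', 0 ≤ k c' := by
    intro c'
    show 0 ≤ if c' = c then 0 else max 0 (-n c')
    split_ifs
    · exact le_rfl
    · exact le_max_left _ _
  obtain ⟨e, he0, he⟩ := exists_prescribed_orders V ϖ' hunif hinj k
  have heV : ∀ c', e ∈ V c' := by
    intro c'
    rw [← ValuationSubring.valuation_le_one_iff, he c', ← map_zpow₀,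
      ValuationSubring.valuation_le_one_iff]
    exact (hunif c').zpow_mem (hk0 c')
  have heyV : ∀ c', e * y ∈ V c' := by
    intro c'
    by_cases hc : c' = c
    · subst hc
      exact (V c').mul_mem _ _ (heV c') hy
    · rw [← ValuationSubring.valuation_le_one_iff, map_mul, he c', ← map_zpow₀, ← map_mul,
        ValuationSubring.valuation_le_one_iff]
      have hkn : 0 ≤ k c' + n c' := by
        have : k c' = max 0 (-n c') := if_neg hc
        rw [this]
        have := le_max_right 0 (-n c')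
        omega
      have e1 : ϖ' c' ^ k c' * y = ϖ' c' ^ (k c' + n c') * (y / ϖ' c' ^ n c') := by
        rw [zpow_add₀ (hunif c').ne_zero]
        have : ϖ' c' ^ n c' ≠ 0 := zpow_ne_zero _ (hunif c').ne_zero
        field_simp
      rw [e1]
      exact (V c').mul_mem _ _ ((hunif c').zpow_mem hkn) (hn c').1
  obtain ⟨b₁, hb₁B, hb₁0, hb₁inv, hb₁⟩ := upLoc_exists_mul_isIntegral ι h₀
    (upLoc_isIntegral_of_complete ι V halg hU hcomp heV)
  obtain ⟨b₂, hb₂B, hb₂0, hb₂inv, hb₂⟩ := upLoc_exists_mul_isIntegral ι h₀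
    (upLoc_isIntegral_of_complete ι V halg hU hcomp heyV)
  have hιB : ∀ b ∈ B₀, ι b ∈ B := by
    intro b hb
    rw [hB]
    exact isIntegral_algebraMap (R := B₀.map ι) (x := (⟨ι b, b, hb, rfl⟩ : B₀.map ι))
  have hval : ∀ b ∈ B₀, b ≠ 0 → b⁻¹ ∈ Ow → (V c).valuation (ι b) = 1 := by
    intro b hb hb0 hbinv
    have h1 : ι b ∈ V c := by
      have : b ∈ (V c).comap ι := by rw [hcomap c]; exact h₀.le b hb
      exact this
    have h2 : (ι b)⁻¹ ∈ V c := by
      have : b⁻¹ ∈ (V c).comap ι := by rw [hcomap c]; exact hbinv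
      rw [← map_inv₀]
      exact this
    apply le_antisymm ((ValuationSubring.valuation_le_one_iff _ _).mpr h1)
    have h3 := (ValuationSubring.valuation_le_one_iff _ _).mpr h2
    rw [map_inv₀] at h3
    have h4 : (V c).valuation (ι b) ≠ 0 :=
      (Valuation.ne_zero_iff _).mpr ((map_ne_zero ι).mpr hb0)
    exact (inv_le_one₀ (zero_lt_iff.mpr h4)).mp h3
  refine ⟨ι b₂ * (ι b₁ * e), B.mul_mem (hιB b₂ hb₂B) ((hB _).mpr hb₁), ?_, ?_⟩
  · rw [map_mul, map_mul, hval b₂ hb₂B hb₂0 hb₂inv, hval b₁ hb₁B hb₁0 hb₁inv, he c]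
    have : k c = 0 := if_pos rfl
    rw [this, zpow_zero, one_mul, one_mul]
  · have e2 : ι b₂ * (ι b₁ * e) * y = ι b₁ * (ι b₂ * (e * y)) := by ring
    rw [e2]
    exact B.mul_mem (hιB b₁ hb₁B) ((hB _).mpr hb₂)

end UP

end Fermat.Agent.S36.BP.Build
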