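/-
S36, block BP/Build, node UP2: the `q`-expansion principle at the upper level from the completeness
of the list of the vertical valuations.   Proofs: helper278.
-/
import Mathlib
import Fermat.Agent.S18.Defs
import Fermat.Agent.S36.BP.Defs

set_option autoImplicit false

noncomputable section

namespace Fermat.Agent.S36.BP.Build

open Fermat.Agent.S18 Polynomial

section UPaux

variable {F₀ F : Type*} [Field F₀] [Field F]

theorem unif_ne_zero {Ow : ValuationSubring F₀} {ϖ : F₀} (hU : IsUnif Ow ϖ) : ϖ ≠ 0 := by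
  rintro rfl
  apply hU.inv_notMem
  rw [inv_zero]
  exact Ow.zero_mem

/-- a discrete valuation ring is a maximal proper subring of its fraction field -/
theorem eq_top_of_unif_of_lt {Ow W : ValuationSubring F₀} {ϖ : F₀} (hU : IsUnif Ow ϖ)
    (hle : Ow ≤ W) (hne : W ≠ Ow) (z : F₀) : z ∈ W := by
  have hϖ0 := unif_ne_zero hU
  obtain ⟨a, haW, haO⟩ : ∃ a, a ∈ W ∧ a ∉ Ow := by
    by_contra h
    push Not at h
    exact hne (le_antisymm h hle)
  have ha0 : a ≠ 0 := by
    rintro rfl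
    exact haO Ow.zero_mem
  obtain ⟨n, h1, h2⟩ := hU.exists_zpow a ha0
  -- `n < 0`
  have hn : n < 0 := by
    by_contra hn
    push Not at hn
    apply haO
    have : a = a / ϖ ^ n * ϖ ^ n := by
      rw [div_mul_cancel₀ _ (zpow_ne_zero n hϖ0)]
    rw [this]
    obtain ⟨m, rfl⟩ := Int.eq_ofNat_of_zero_le hn
    rw [zpow_natCast]
    exact Ow.mul_mem _ _ (by rwa [zpow_natCast] at h1) (Ow.pow_mem hU.mem m)
  -- `ϖ⁻¹ ∈ W`
  obtain ⟨m, hm⟩ : ∃ m : ℕ, n = -((m : ℤ) + 1) := ⟨(-n - 1).toNat, by omega⟩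
  have hinv : ϖ⁻¹ ∈ W := by
    have e : ϖ⁻¹ = a * (a / ϖ ^ n)⁻¹ * ϖ ^ m := by
      rw [hm, zpow_neg, zpow_add₀ hϖ0, zpow_natCast, zpow_one]
      field_simp
    rw [e]
    exact W.mul_mem _ _ (W.mul_mem _ _ haW (hle h2)) (W.pow_mem (hle hU.mem) m)
  by_cases hz : z = 0
  · rw [hz]; exact W.zero_mem
  obtain ⟨l, h3, -⟩ := hU.exists_zpow z hz
  have e : z = z / ϖ ^ l * ϖ ^ l := by rw [div_mul_cancel₀ _ (zpow_ne_zero l hϖ0)]
  rw [e]
  refine W.mul_mem _ _ (hle h3) ?_
  rcases Int.eq_nat_or_neg l with ⟨j, rfl | rfl⟩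
  · rw [zpow_natCast]
    exact W.pow_mem (hle hU.mem) j
  · rw [zpow_neg, zpow_natCast, ← inv_pow]
    exact W.pow_mem hinv j

/-- a valuation subring containing a subfield over which `F` is integral is everything -/
theorem mem_of_range_le (ι : F₀ →+* F) (halg : ∀ z : F, ι.IsIntegralElem z)
    (W : ValuationSubring F) (h : ∀ a : F₀, ι a ∈ W) (z : F) : z ∈ W := by
  obtain ⟨p, hp, hp0⟩ := halg z
  let f : F₀ →+* W := ι.codRestrict W.toSubring h
  have hz : IsIntegral W z := by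
    refine ⟨p.map f, hp.map f, ?_⟩
    rw [eval₂_map]
    exact hp0
  obtain ⟨w, rfl⟩ := (IsIntegrallyClosed.isIntegral_iff (R := W) (K := F)).mp hz
  exact w.2

/-- integrality over the image of a subring -/
theorem isIntegral_map_iff (ι : F₀ →+* F) (S : Subring F₀) (z : F) :
    IsIntegral (S.map ι) z ↔ (ι.comp S.subtype).IsIntegralElem z := by
  constructor
  · rintro ⟨p, hp, hp0⟩
    let e := S.equivMapOfInjective ι ι.injective
    refine ⟨p.map (e.symm : S.map ι →+* S), hp.map _, ?_⟩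
    rw [eval₂_map]
    have : (ι.comp S.subtype).comp (e.symm : S.map ι →+* S) = algebraMap (S.map ι) F := by
      ext x
      obtain ⟨s, rfl⟩ := e.surjective x
      simp only [RingHom.comp_apply, RingHom.coe_coe, RingEquiv.symm_apply_apply]
      rfl
    rw [this]
    exact hp0
  · rintro ⟨p, hp, hp0⟩
    let e := S.equivMapOfInjective ι ι.injective
    refine ⟨p.map (e : S →+* S.map ι), hp.map _, ?_⟩
    rw [eval₂_map]
    exact hp0

/-- the coefficients of the minimal polynomial over `F₀` of an `S`-integral element are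
`S`-integral -/
theorem isIntegral_coeff_minpoly_up [Algebra F₀ F] (S : Subring F₀) {y : F} (hy : IsIntegral S y)
    (i : ℕ) : IsIntegral S ((minpoly F₀ y).coeff i) := by
  obtain ⟨p, hp, hp0⟩ := hy
  have hyL : IsIntegral F₀ y := by
    refine ⟨p.map (algebraMap S F₀), hp.map _, ?_⟩
    rw [Polynomial.eval₂_map]
    exact hp0
  refine Polynomial.isIntegral_coeff_of_dvd p (minpoly F₀ y) hp (minpoly.monic hyL) ?_ i
  apply minpoly.dvd
  rw [Polynomial.aeval_def, Polynomial.eval₂_map]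
  exact hp0

/-- iterated `q`-expansion principle -/
theorem qep_pow_up {Ow : ValuationSubring F₀} {ϖ : F₀} {B₀ : Subring F₀} (hU : IsUnif Ow ϖ)
    (h : IsChart Ow ϖ B₀) (k : ℕ) {b : F₀} (hb : b ∈ B₀) (hk : b / ϖ ^ k ∈ Ow) :
    b / ϖ ^ k ∈ B₀ := by
  have hϖ0 := unif_ne_zero hU
  induction k with
  | zero => simpa using hb
  | succ k ih =>
    have e1 : b / ϖ ^ k = ϖ * (b / ϖ ^ (k + 1)) := by
      rw [pow_succ]
      field_simp
    have h1 : b / ϖ ^ k ∈ B₀ := ih (by rw [e1]; exact Ow.mul_mem _ _ hU.mem hk)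
    have e2 : b / ϖ ^ (k + 1) = b / ϖ ^ k / ϖ := by
      rw [pow_succ, div_div]
    rw [e2]
    exact h.qep _ h1 (by rw [← e2]; exact hk)

end UPaux

section UP

variable {F₀ F : Type*} [Field F₀] [Field F] (ι : F₀ →+* F)
  {Ow : ValuationSubring F₀} {ϖ : F₀} {B₀ : Subring F₀}

variable {κ : Type*} (V : κ → ValuationSubring F)

/-- the intersection of ALL extensions of `Ow` is integral over `Ow`
(Mathlib: `iInf_valuationSubring_superset`). -/
theorem isIntegral_of_complete (halg : ∀ z : F, ι.IsIntegralElem z) (hU : IsUnif Ow ϖ)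
    (hcomp : ∀ W : ValuationSubring F, W.comap ι = Ow → ∃ c, W = V c) {y : F}
    (hy : ∀ c, y ∈ V c) : IsIntegral (Ow.toSubring.map ι) y := by
  have key := iInf_valuationSubring_superset (K := F) (s := (Ow.toSubring.map ι : Set F))
  rw [Subring.closure_eq] at key
  have hmem : y ∈ (integralClosure (Ow.toSubring.map ι) F).toSubring := by
    rw [← key, Subring.mem_iInf]
    rintro ⟨W, hW⟩
    show y ∈ W
    have hle : Ow ≤ W.comap ι := by
      intro a ha
      exact hW ⟨a, ha, rfl⟩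
    by_cases hc : W.comap ι = Ow
    · obtain ⟨c, rfl⟩ := hcomp W hc
      exact hy c
    · exact mem_of_range_le ι halg W (fun a => eq_top_of_unif_of_lt hU hle hc a) y
  exact hmem

/-- **(QEP)** at the upper level. -/
theorem qep_of_level0 (halg : ∀ z : F, ι.IsIntegralElem z) (hU : IsUnif Ow ϖ)
    (h₀ : IsChart Ow ϖ B₀) (hcomp : ∀ W : ValuationSubring F, W.comap ι = Ow → ∃ c, W = V c)
    {B : Subring F} (hB : ∀ z : F, z ∈ B ↔ IsIntegral (B₀.map ι) z) :
    ∀ y : F, ι ϖ * y ∈ B → (∀ c, y ∈ V c) → y ∈ B := by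
  intro y hy hV
  let _ : Algebra F₀ F := ι.toAlgebra
  have hϖ0 := unif_ne_zero hU
  have conv : ∀ (S : Subring F₀) (z : F), IsIntegral (S.map ι) z ↔ IsIntegral S z :=
    fun S z => isIntegral_map_iff ι S z
  have h1 : IsIntegral Ow.toSubring y :=
    (conv _ _).mp (isIntegral_of_complete ι V halg hU hcomp hV)
  have h2 : IsIntegral B₀ (ϖ • y) := (conv _ _).mp ((hB _).mp hy)
  have hyF : IsIntegral F₀ y := halg y
  have hc : ∀ i, (minpoly F₀ y).coeff i ∈ B₀ := by
    intro i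
    have a1 : (minpoly F₀ y).coeff i ∈ Ow := by
      have h3 : IsIntegral Ow ((minpoly F₀ y).coeff i) :=
        isIntegral_coeff_minpoly_up Ow.toSubring h1 i
      obtain ⟨w, hw⟩ := (IsIntegrallyClosed.isIntegral_iff (R := Ow) (K := F₀)).mp h3
      rw [← hw]
      exact w.2
    have a2 : (minpoly F₀ (ϖ • y)).coeff i ∈ B₀ :=
      h₀.intClosed _ (isIntegral_coeff_minpoly_up B₀ h2 i)
    rw [IsIntegrallyClosed.minpoly_smul hϖ0 hyF, coeff_scaleRoots] at a2
    have h4 := qep_pow_up hU h₀ ((minpoly F₀ y).natDegree - i) a2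
      (by rwa [mul_div_cancel_right₀ _ (pow_ne_zero _ hϖ0)])
    rwa [mul_div_cancel_right₀ _ (pow_ne_zero _ hϖ0)] at h4
  rw [hB, conv]
  have hsub : (↑(minpoly F₀ y).coeffs : Set F₀) ⊆ B₀ := by
    intro a ha
    obtain ⟨i, -, rfl⟩ := Polynomial.mem_coeffs_iff.mp (Finset.mem_coe.mp ha)
    exact hc i
  refine ⟨(minpoly F₀ y).toSubring B₀ hsub, ?_, ?_⟩
  · exact (Polynomial.monic_toSubring _ _ _).mpr (minpoly.monic hyF)
  · have h5 : ((minpoly F₀ y).toSubring B₀ hsub).map (algebraMap B₀ F₀) = minpoly F₀ y :=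
      Polynomial.map_toSubring _ _ _
    have h6 := minpoly.aeval F₀ y
    rw [← h5, Polynomial.aeval_def, Polynomial.eval₂_map] at h6
    exact h6

end UP

end Fermat.Agent.S36.BP.Build
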