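/-
S36, block BP / BUILD-HALF (sub-architect helper154): `TABLE ⇒ Half`.  Node H1.
Two lemmas on finite field extensions in characteristic `q`.
-/
import Mathlib

set_option autoImplicit false

namespace Fermat.Agent.S36.BP.BuildHalf

variable {k l : Type*} [Field k] [Field l] [Algebra k l] [FiniteDimensional k l]

/-- `X ^ q - c` is irreducible (`X_pow_sub_C_irreducible_of_prime`; if `c = d ^ q` then
`(y - d) ^ q = 0`), so it is the minimal polynomial of `y` (`minpoly.natDegree_le`). -/
theorem le_finrank_of_pow_eq (q : ℕ) (hq : q.Prime) [CharP k q] (y : l) (c : k)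
    (hy : y ^ q = algebraMap k l c) (hn : y ∉ Set.range (algebraMap k l)) :
    q ≤ Module.finrank k l := by
  open Polynomial in
  have : Fact q.Prime := ⟨hq⟩
  have : CharP l q := (Algebra.charP_iff k l q).1 inferInstance
  have hirr : Irreducible (X ^ q - C c : k[X]) := by
    apply X_pow_sub_C_irreducible_of_prime hq
    intro d hd
    apply hn
    refine ⟨d, ?_⟩
    have h1 : (y - algebraMap k l d) ^ q = 0 := by
      rw [sub_pow_char, hy, ← map_pow, hd, sub_self]
    exact (sub_eq_zero.1 (pow_eq_zero_iff hq.ne_zero |>.1 h1)).symm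
  have hroot : aeval y (X ^ q - C c : k[X]) = 0 := by
    simp [hy]
  have hmin : minpoly k y = X ^ q - C c :=
    (minpoly.eq_of_irreducible_of_monic hirr hroot (monic_X_pow_sub_C c hq.ne_zero)).symm
  have hdeg : (minpoly k y).natDegree = q := by
    rw [hmin, natDegree_X_pow_sub_C]
  rw [← hdeg]
  exact minpoly.natDegree_le y

/-- `N(y) ^ q = N(y ^ q) = N(c) = c ^ q` and the Frobenius of `k` is injective. -/
theorem norm_eq_of_pow_eq (q : ℕ) (hq : q.Prime) [CharP k q] (hdeg : Module.finrank k l = q)
    (y : l) (c : k) (hy : y ^ q = algebraMap k l c) : Algebra.norm k y = c := by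
  have : Fact q.Prime := ⟨hq⟩
  have h1 : Algebra.norm k y ^ q = c ^ q := by
    rw [← map_pow, hy, Algebra.norm_algebraMap, hdeg]
  exact frobenius_inj k q h1

end Fermat.Agent.S36.BP.BuildHalf
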