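/-
S36, block BP / BUILD-HALF (sub-architect helper154): `TABLE ⇒ Half`.

Definitions and instances: `V` a discrete valuation subring of `K`, `L / K` a finite extension of
fields of characteristic zero, `IC V L` the integral closure of `V` in `L` (a Dedekind domain),
`centre V W` the centre on `IC V L` of a valuation subring `W` of `L`.
-/
import Mathlib

set_option autoImplicit false

noncomputable section

namespace Fermat.Agent.S36.BP.BuildHalf

open IsLocalRing

variable {K : Type*} [Field K]

/-- The integral closure of `V` in `L`. -/
abbrev IC (V : ValuationSubring K) (L : Type*) [Field L] [Algebra K L] : Subalgebra V L :=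
  integralClosure V L

variable {L : Type*} [Field L] [Algebra K L]

/-- The centre of `W` on the integral closure of `V` (meaningful when `W` contains `V`). -/
def centre (V : ValuationSubring K) (W : ValuationSubring L) : Ideal (IC V L) :=
  Ideal.span {b | W.valuation (b : L) < 1}

instance isTorsionFree_IC (V : ValuationSubring K) : Module.IsTorsionFree V (IC V L) :=
  inferInstance

section Inst

variable (V : ValuationSubring K) [IsDiscreteValuationRing V] [FiniteDimensional K L] [CharZero K]

instance isDedekindDomain_IC : IsDedekindDomain (IC V L) :=
  integralClosure.isDedekindDomain V K L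

instance isFractionRing_IC : IsFractionRing (IC V L) L :=
  integralClosure.isFractionRing_of_finite_extension K L

instance finite_IC : Module.Finite V (IC V L) :=
  IsIntegralClosure.finite V K L _

end Inst

/-- The complete table of the extensions `W i` of `V` to `L`, with ramification indices `e i` and
residue degrees `f i`, on the Dedekind side. -/
structure Tab (V : ValuationSubring K) {ι : Type*} [Fintype ι] (W : ι → ValuationSubring L)
    (e f : ι → ℕ) : Prop where
  lies : ∀ i, (W i).comap (algebraMap K L) = V
  inj : Function.Injective W
  inertia : ∀ i, (centre V (W i)).inertiaDeg V = f i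
  exhaust : ∀ Q : Ideal (IC V L), Q.IsPrime → Q ≠ ⊥ → ∃ i, Q = centre V (W i)
  fac : (maximalIdeal V).map (algebraMap V (IC V L)) = ∏ i, centre V (W i) ^ e i

end Fermat.Agent.S36.BP.BuildHalf
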