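/-
S36, block BP / BUILD-HALF (sub-architect helper154): `TABLE ⇒ Half`.  Node H2.
The centre of a valuation subring `W` over `V` is a maximal ideal over the maximal ideal of `V`.
-/
import Fermat.Agent.S36.BP.Build.HalfDefs

set_option autoImplicit false

namespace Fermat.Agent.S36.BP.BuildHalf

open IsLocalRing

variable {K L : Type*} [Field K] [Field L] [Algebra K L]
variable {V : ValuationSubring K} {W : ValuationSubring L}

/-- model: `S37/HeckeInputs/Local.lean`, `mem_of_restrict_eq`. -/
theorem mem_of_isIntegral (hW : V ≤ W.comap (algebraMap K L)) {b : L} (hb : IsIntegral V b) :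
    b ∈ W := by
  let φ : V →+* W :=
    { toFun := fun x => ⟨algebraMap K L (x : K), hW x.2⟩
      map_one' := Subtype.ext (map_one _)
      map_mul' := fun x y => Subtype.ext (map_mul _ _ _)
      map_zero' := Subtype.ext (map_zero _)
      map_add' := fun x y => Subtype.ext (map_add _ _ _) }
  let _ : Algebra V W := φ.toAlgebra
  have : IsScalarTower V W L := IsScalarTower.of_algebraMap_eq fun _ => rfl
  have h1 : IsIntegral W b := hb.tower_top
  obtain ⟨y, hy⟩ := (IsIntegrallyClosed.isIntegral_iff (R := W) (K := L)).1 h1
  rw [← hy]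
  exact y.2

theorem valuation_IC_le_one (hW : V ≤ W.comap (algebraMap K L)) (b : IC V L) :
    W.valuation (b : L) ≤ 1 :=
  (W.valuation_le_one_iff _).2 (mem_of_isIntegral hW b.2)

theorem mem_centre (hW : V ≤ W.comap (algebraMap K L)) {b : IC V L} :
    b ∈ centre V W ↔ W.valuation (b : L) < 1 := by
  constructor
  · intro hb
    unfold centre at hb
    induction hb using Submodule.span_induction with
    | mem x hx => exact hx
    | zero => simp
    | add x y _ _ hx hy =>
      exact lt_of_le_of_lt (W.valuation.map_add _ _) (max_lt hx hy)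
    | smul a x _ hx =>
      show W.valuation ((a : L) * (x : L)) < 1
      rw [map_mul]
      exact lt_of_le_of_lt (mul_le_of_le_one_left' (valuation_IC_le_one hW a)) hx
  · intro hb
    exact Ideal.subset_span hb

theorem centre_isPrime (hW : V ≤ W.comap (algebraMap K L)) : (centre V W).IsPrime := by
  constructor
  · intro h
    have h1 : (1 : IC V L) ∈ centre V W := by rw [h]; trivial
    rw [mem_centre hW] at h1
    simp at h1
  · intro x y hxy
    rw [mem_centre hW] at hxy
    rw [mem_centre hW, mem_centre hW]
    by_contra hcon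
    rw [not_or, not_lt, not_lt] at hcon
    have h1 : W.valuation ((x : L) * (y : L)) < 1 := hxy
    rw [map_mul] at h1
    exact absurd (Left.one_le_mul hcon.1 hcon.2) (not_le.2 h1)

/-- `v x < 1` iff `x⁻¹` is not in the valuation ring (`x ≠ 0`). -/
theorem valuation_lt_one_iff_inv_notMem {E : Type*} [Field E] (A : ValuationSubring E) {a : E}
    (ha : a ≠ 0) : A.valuation a < 1 ↔ a⁻¹ ∉ A := by
  rw [← ValuationSubring.valuation_le_one_iff, map_inv₀, not_le]
  have h0 : 0 < A.valuation a := zero_lt_iff.2 ((map_ne_zero _).2 ha)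
  exact (one_lt_inv₀ h0).symm

theorem valuation_algebraMap_lt_one_iff (hW : W.comap (algebraMap K L) = V) (x : K) :
    W.valuation (algebraMap K L x) < 1 ↔ V.valuation x < 1 := by
  by_cases hx : x = 0
  · subst hx; simp
  · have hx' : algebraMap K L x ≠ 0 := (map_ne_zero _).2 hx
    rw [valuation_lt_one_iff_inv_notMem W hx', valuation_lt_one_iff_inv_notMem V hx, ← map_inv₀,
      ← hW, ValuationSubring.mem_comap]

theorem centre_liesOver (hW : W.comap (algebraMap K L) = V) :
    (centre V W).LiesOver (maximalIdeal V) := by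
  constructor
  ext x
  rw [Ideal.under_def, Ideal.mem_comap, mem_centre hW.ge, ValuationSubring.valuation_lt_one_iff]
  exact (valuation_algebraMap_lt_one_iff hW (x : K)).symm

theorem centre_isMaximal (hW : W.comap (algebraMap K L) = V) : (centre V W).IsMaximal := by
  have := centre_liesOver hW
  have := centre_isPrime (V := V) (W := W) hW.ge
  exact Ideal.IsMaximal.of_liesOver_isMaximal (centre V W) (maximalIdeal V)

theorem centre_ne_bot [IsDiscreteValuationRing V] (hW : W.comap (algebraMap K L) = V) :
    centre V W ≠ ⊥ := by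
  obtain ⟨ϖ, hϖ⟩ := IsDiscreteValuationRing.exists_irreducible V
  have h1 : ϖ ∈ maximalIdeal V := hϖ.not_isUnit
  have h2 : algebraMap V (IC V L) ϖ ∈ centre V W := by
    have := (centre_liesOver hW).over
    rw [this, Ideal.under_def, Ideal.mem_comap] at h1
    exact h1
  intro hbot
  rw [hbot, Ideal.mem_bot] at h2
  have h3 : algebraMap K L (ϖ : K) = 0 := congrArg Subtype.val h2
  have h4 : (ϖ : K) = 0 := (map_eq_zero _).1 h3
  exact hϖ.ne_zero (Subtype.ext h4)

end Fermat.Agent.S36.BP.BuildHalf
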