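/-
S36, block BP / BUILD-HALF (sub-architect helper154): `TABLE ⇒ Half`.  Node H3.
`W` is the valuation ring of its centre (use `HeightOneSpectrum.exists_primeCompl_mul_eq_of_integer`,
`valuation_lt_one_iff_mem`, `valuation_le_one` of `Mathlib/RingTheory/DedekindDomain/AdicValuation.lean`).
-/
import Fermat.Agent.S36.BP.Build.HalfCentre

set_option autoImplicit false

noncomputable section

namespace Fermat.Agent.S36.BP.BuildHalf

open IsLocalRing IsDedekindDomain

variable {K L : Type*} [Field K] [Field L] [Algebra K L]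
variable {V : ValuationSubring K} [IsDiscreteValuationRing V] [FiniteDimensional K L] [CharZero K]
  {W W' : ValuationSubring L}

/-- The centre as a height one prime. -/
def spec (hW : W.comap (algebraMap K L) = V) : HeightOneSpectrum (IC V L) :=
  ⟨centre V W, centre_isPrime hW.ge, centre_ne_bot hW⟩

omit [IsDiscreteValuationRing V] [FiniteDimensional K L] [CharZero K] in
theorem halfVal_val_le_one (hW : W.comap (algebraMap K L) = V) (b : IC V L) :
    W.valuation (b : L) ≤ 1 :=
  (W.valuation_le_one_iff _).2 (mem_of_isIntegral hW.ge b.2)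

omit [IsDiscreteValuationRing V] [FiniteDimensional K L] [CharZero K] in
theorem halfVal_val_eq_one (hW : W.comap (algebraMap K L) = V) {b : IC V L}
    (hb : b ∉ centre V W) : W.valuation (b : L) = 1 :=
  le_antisymm (halfVal_val_le_one hW b) (not_lt.1 fun h => hb ((mem_centre hW.ge).2 h))

theorem halfVal_mem_of_le_one (hW : W.comap (algebraMap K L) = V) {x : L}
    (hx : (spec hW).valuation L x ≤ 1) : x ∈ W := by
  obtain ⟨n, ⟨d, hd⟩, e⟩ := (spec hW).exists_primeCompl_mul_eq_of_integer x hx
  have hd1 : W.valuation (d : L) = 1 := halfVal_val_eq_one hW hd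
  have e' : x * (d : L) = (n : L) := e
  rw [← W.valuation_le_one_iff]
  have h1 : W.valuation x = W.valuation (n : L) := by
    rw [← e', map_mul, hd1, mul_one]
  rw [h1]
  exact halfVal_val_le_one hW n

theorem halfVal_val_lt_one_of_lt_one (hW : W.comap (algebraMap K L) = V) {x : L}
    (hx : (spec hW).valuation L x < 1) : W.valuation x < 1 := by
  obtain ⟨n, ⟨d, hd⟩, e⟩ := (spec hW).exists_primeCompl_mul_eq_of_integer x hx.le
  have hd1 : W.valuation (d : L) = 1 := halfVal_val_eq_one hW hd
  have hd2 : (spec hW).valuation L (algebraMap (IC V L) L d) = 1 :=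
    (spec hW).valuation_eq_one_iff_notMem.2 hd
  have hn : n ∈ (spec hW).asIdeal := by
    refine (HeightOneSpectrum.valuation_lt_one_iff_mem (K := L) (spec hW) n).1 ?_
    show (spec hW).valuation L (algebraMap (IC V L) L n) < 1
    rw [← e, map_mul, hd2, mul_one]
    exact hx
  have e' : x * (d : L) = (n : L) := e
  have h1 : W.valuation x = W.valuation (n : L) := by
    rw [← e', map_mul, hd1, mul_one]
  rw [h1]
  exact (mem_centre hW.ge).1 hn

theorem spec_valuation_le_one_iff (hW : W.comap (algebraMap K L) = V) (x : L) :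
    (spec hW).valuation L x ≤ 1 ↔ x ∈ W := by
  refine ⟨halfVal_mem_of_le_one hW, fun hx => ?_⟩
  by_contra hlt
  rw [not_le] at hlt
  have hx0 : x ≠ 0 := by
    rintro rfl
    rw [map_zero] at hlt
    exact not_lt_zero hlt
  have h1 : (spec hW).valuation L x⁻¹ < 1 := by
    rw [map_inv₀]
    exact inv_lt_one_of_one_lt₀ hlt
  have h2 := halfVal_val_lt_one_of_lt_one hW h1
  have h3 : W.valuation x ≤ 1 := (W.valuation_le_one_iff _).2 hx
  have h4 : W.valuation x * W.valuation x⁻¹ = 1 := by
    rw [← map_mul, mul_inv_cancel₀ hx0, map_one]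
  have h5 : W.valuation x * W.valuation x⁻¹ < 1 := mul_lt_one_of_nonneg_of_lt_one_right h3 zero_le h2
  exact h5.ne h4

theorem spec_valuation_lt_one_iff (hW : W.comap (algebraMap K L) = V) (x : L) :
    (spec hW).valuation L x < 1 ↔ W.valuation x < 1 := by
  refine ⟨halfVal_val_lt_one_of_lt_one hW, fun hx => ?_⟩
  by_contra hlt
  rw [not_lt] at hlt
  have hx0 : x ≠ 0 := by
    rintro rfl
    rw [map_zero] at hlt
    exact not_le.2 zero_lt_one hlt
  have h1 : (spec hW).valuation L x⁻¹ ≤ 1 := by
    rw [map_inv₀]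
    exact inv_le_one_of_one_le₀ hlt
  have h2 : W.valuation x⁻¹ ≤ 1 := (W.valuation_le_one_iff _).2 (halfVal_mem_of_le_one hW h1)
  have h4 : W.valuation x⁻¹ * W.valuation x = 1 := by
    rw [← map_mul, inv_mul_cancel₀ hx0, map_one]
  have h5 : W.valuation x⁻¹ * W.valuation x < 1 := mul_lt_one_of_nonneg_of_lt_one_right h2 zero_le hx
  exact h5.ne h4

theorem eq_of_centre_eq (hW : W.comap (algebraMap K L) = V) (hW' : W'.comap (algebraMap K L) = V)
    (h : centre V W = centre V W') : W = W' := by
  have hs : spec hW = spec hW' := HeightOneSpectrum.ext h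
  ext x
  rw [← spec_valuation_le_one_iff hW, ← spec_valuation_le_one_iff hW', hs]

/-- `x * d = n` with `d ∉ P`; `P` is maximal, so `d * d' - 1 ∈ P`; take `b = n * d'`. -/
theorem exists_IC_cong (hW : W.comap (algebraMap K L) = V) {x : L} (hx : x ∈ W) :
    ∃ b : IC V L, W.valuation ((b : L) - x) < 1 := by
  obtain ⟨n, ⟨d, hd⟩, e⟩ := (spec hW).exists_primeCompl_mul_eq_of_integer x
    ((spec_valuation_le_one_iff hW x).2 hx)
  have e' : x * (d : L) = (n : L) := e
  obtain ⟨d', i, hi, hdi⟩ := (centre_isMaximal hW).exists_inv hd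
  refine ⟨n * d', ?_⟩
  have hi' : W.valuation (i : L) < 1 := (mem_centre hW.ge).1 hi
  have h1 : ((d' : L) * (d : L) + (i : L)) = 1 := by
    have := congrArg (fun z : IC V L => (z : L)) hdi
    simpa using this
  have h2 : ((n * d' : IC V L) : L) - x = - (x * (i : L)) := by
    push_cast
    rw [← e']
    linear_combination x * h1
  rw [h2, Valuation.map_neg, map_mul]
  exact mul_lt_one_of_nonneg_of_lt_one_right ((W.valuation_le_one_iff _).2 hx) zero_le hi'

end Fermat.Agent.S36.BP.BuildHalf
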