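/-
S36, block BP / BUILD-HALF (sub-architect helper154): `TABLE ⇒ Half`.  Node H8.
Integrality; norms of integral elements, units and nonunits.
-/
import Fermat.Agent.S36.BP.Build.HalfVal
import Fermat.Agent.Lib.ResidueNorm.Dedekind

set_option autoImplicit false

namespace Fermat.Agent.S36.BP.BuildHalf

open IsLocalRing IsDedekindDomain

variable {K L : Type*} [Field K] [Field L] [Algebra K L]
variable {V : ValuationSubring K} [IsDiscreteValuationRing V] [FiniteDimensional K L] [CharZero K]
  {ι : Type*} [Fintype ι] {W : ι → ValuationSubring L} {e f : ι → ℕ}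

/-- `HeightOneSpectrum.mem_integers_of_valuation_le_one`, `T.exhaust`,
`spec_valuation_le_one_iff`. -/
theorem Tab.isIntegral (T : Tab V W e f) {y : L} (hy : ∀ i, y ∈ W i) : IsIntegral V y := by
  have h : y ∈ (algebraMap (IC V L) L).range := by
    refine HeightOneSpectrum.mem_integers_of_valuation_le_one L y fun v => ?_
    obtain ⟨i, hi⟩ := T.exhaust v.asIdeal v.isPrime v.ne_bot
    have hv : v = spec (T.lies i) := HeightOneSpectrum.ext hi
    rw [hv, spec_valuation_le_one_iff]
    exact hy i
  obtain ⟨b, rfl⟩ := h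
  exact b.2

/-- `Algebra.isIntegral_norm`, `V` is integrally closed in `K`. -/
theorem Tab.norm_mem (T : Tab V W e f) {y : L} (hy : ∀ i, y ∈ W i) : Algebra.norm K y ∈ V := by
  have h : IsIntegral V (Algebra.norm K y) := Algebra.isIntegral_norm K (T.isIntegral hy)
  obtain ⟨z, hz⟩ := (IsIntegrallyClosed.isIntegral_iff (R := V) (K := K)).mp h
  rw [← hz]
  exact z.2

/-- The extension of the maximal ideal of `V` to the integral closure is nonzero. -/
theorem map_maximalIdeal_IC_ne_bot :
    (maximalIdeal V).map (algebraMap V (IC V L)) ≠ ⊥ := by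
  intro h
  rw [Ideal.map_eq_bot_iff_of_injective (FaithfulSMul.algebraMap_injective V (IC V L))] at h
  exact IsDiscreteValuationRing.not_a_field V h

/-- The table is not empty. -/
theorem Tab.nonempty (T : Tab V W e f) : Nonempty ι := by
  obtain ⟨Q, hQ, hQo⟩ :=
    Ideal.exists_maximal_ideal_liesOver_of_isIntegral (S := IC V L) (maximalIdeal V)
  have hne : Q ≠ ⊥ := by
    rintro rfl
    have h1 : (maximalIdeal V).map (algebraMap V (IC V L)) ≤ ⊥ := by
      rw [Ideal.map_le_iff_le_comap, ← Ideal.under_def, ← hQo.over]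
    exact map_maximalIdeal_IC_ne_bot (le_bot_iff.mp h1)
  obtain ⟨i, -⟩ := T.exhaust Q hQ.isPrime hne
  exact ⟨i⟩

theorem Tab.norm_unit (T : Tab V W e f) {y : L} (hy : ∀ i, (W i).valuation y = 1) :
    V.valuation (Algebra.norm K y) = 1 := by
  have h1 : Algebra.norm K y ∈ V :=
    T.norm_mem fun i => ((W i).valuation_le_one_iff y).mp (hy i).le
  have h2 : Algebra.norm K y⁻¹ ∈ V :=
    T.norm_mem fun i => ((W i).valuation_le_one_iff y⁻¹).mp (by rw [map_inv₀, hy i, inv_one])
  rw [← V.valuation_le_one_iff] at h1 h2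
  obtain ⟨i⟩ := T.nonempty
  have hy0 : y ≠ 0 := by
    rintro rfl
    have := hy i
    rw [map_zero] at this
    exact zero_ne_one this
  have hmul : V.valuation (Algebra.norm K y) * V.valuation (Algebra.norm K y⁻¹) = 1 := by
    rw [← map_mul, ← map_mul, mul_inv_cancel₀ hy0, map_one, map_one]
  refine le_antisymm h1 ?_
  calc (1 : V.ValueGroup) = V.valuation (Algebra.norm K y) * V.valuation (Algebra.norm K y⁻¹) :=
        hmul.symm
    _ ≤ V.valuation (Algebra.norm K y) * 1 := mul_le_mul_right h2 _
    _ = V.valuation (Algebra.norm K y) := mul_one _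

/-- `centre V (W i)` contains `𝔪_V (IC V L) = ∏ j, centre V (W j) ^ e j`, so it contains (hence is
equal to) some `centre V (W j)` with `e j ≠ 0`; then `j = i` by `eq_of_centre_eq` and `T.inj`. -/
theorem Tab.e_pos (T : Tab V W e f) (i : ι) : 0 < e i := by
  classical
  have hP : (centre V (W i)).IsPrime := centre_isPrime (T.lies i).ge
  have hlo : (centre V (W i)).LiesOver (maximalIdeal V) := centre_liesOver (T.lies i)
  have hle : (maximalIdeal V).map (algebraMap V (IC V L)) ≤ centre V (W i) := by
    rw [Ideal.map_le_iff_le_comap, ← Ideal.under_def, ← hlo.over]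
  rw [T.fac] at hle
  obtain ⟨j, -, hj⟩ := (hP.prod_le).mp hle
  by_cases hej : e j = 0
  · rw [hej, pow_zero, Ideal.one_eq_top, top_le_iff] at hj
    exact absurd hj hP.ne_top
  · have hj' : centre V (W j) ≤ centre V (W i) := hP.le_of_pow_le hj
    have hmax : (centre V (W j)).IsMaximal := centre_isMaximal (T.lies j)
    have heq : centre V (W j) = centre V (W i) := hmax.eq_of_le hP.ne_top hj'
    have : j = i := T.inj (eq_of_centre_eq (T.lies j) (T.lies i) heq)
    exact this ▸ Nat.pos_of_ne_zero hej

/-- `Algebra.algebraMap_intNorm`. -/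
theorem coe_intNorm (b : IC V L) :
    ((Algebra.intNorm V (IC V L) b : V) : K) = Algebra.norm K (b : L) :=
  Algebra.algebraMap_intNorm (A := V) (K := K) (L := L) (B := IC V L) b

/-- `Lib.ResidueNorm.mk_intNorm_eq_prod` with `P i = centre V (W i)` (instances from
`centre_isMaximal`, `centre_liesOver`): the factor `i` is `Algebra.norm _ 0 ^ e i = 0`. -/
theorem Tab.norm_lt_one (T : Tab V W e f) {y : L} (hy : ∀ i, y ∈ W i) (i : ι)
    (hi : (W i).valuation y < 1) : V.valuation (Algebra.norm K y) < 1 := by
  classical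
  let b : IC V L := ⟨y, T.isIntegral hy⟩
  have : ∀ j, (centre V (W j)).IsMaximal := fun j => centre_isMaximal (T.lies j)
  have : ∀ j, (centre V (W j)).LiesOver (maximalIdeal V) := fun j => centre_liesOver (T.lies j)
  have hp : (maximalIdeal V).map (algebraMap V (IC V L)) ≠ ⊥ := map_maximalIdeal_IC_ne_bot
  have key := Lib.ResidueNorm.mk_intNorm_eq_prod (maximalIdeal V) (fun j => centre V (W j)) e
    hp T.fac b
  have hb : Ideal.Quotient.mk (centre V (W i)) b = 0 := by
    rw [Ideal.Quotient.eq_zero_iff_mem, mem_centre (T.lies i).ge]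
    exact hi
  have h0 : Ideal.Quotient.mk (maximalIdeal V) (Algebra.intNorm V (IC V L) b) = 0 := by
    rw [key]
    refine Finset.prod_eq_zero (Finset.mem_univ i) ?_
    letI : Field (V ⧸ maximalIdeal V) := Ideal.Quotient.field _
    have hfree : Module.Free (V ⧸ maximalIdeal V) (IC V L ⧸ centre V (W i)) :=
      Module.Free.of_divisionRing _ _
    have hfin : Module.Finite (V ⧸ maximalIdeal V) (IC V L ⧸ centre V (W i)) :=
      Module.Finite.of_restrictScalars_finite V _ _
    have hnt : Nontrivial (IC V L ⧸ centre V (W i)) :=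
      Ideal.Quotient.nontrivial_iff.mpr (centre_isPrime (T.lies i).ge).ne_top
    rw [hb, Algebra.norm_zero, zero_pow (T.e_pos i).ne']
  rw [Ideal.Quotient.eq_zero_iff_mem] at h0
  have := (V.valuation_lt_one_iff _).mp h0
  rw [coe_intNorm] at this
  exact this

end Fermat.Agent.S36.BP.BuildHalf
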