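/-
S36, block BP / BUILD-HALF (sub-architect helper154): `TABLE ⇒ Half`.  Node H12.
If the residue degree is `q` and ONE residue `y₀ ∉ k` satisfies `y₀ ^ q ∈ k`, then the residue
extension is `k(y₀)`, so that the `q`-th power of EVERY residue lies in `k`.
-/
import Fermat.Agent.S36.BP.Build.HalfNorm
import Fermat.Agent.S36.BP.Build.HalfField
import Fermat.Agent.S36.BP.Cong

set_option autoImplicit false

namespace Fermat.Agent.S36.BP.BuildHalf

open IsLocalRing IsDedekindDomain

section Field

variable {k l : Type*} [Field k] [Field l] [Algebra k l] [FiniteDimensional k l]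

theorem pow_mem_range_of_finrank_eq (q : ℕ) (hq : q.Prime) [CharP k q]
    (hdeg : Module.finrank k l = q) (y₀ : l) (c : k) (hy : y₀ ^ q = algebraMap k l c)
    (hn : y₀ ∉ Set.range (algebraMap k l)) (z : l) : z ^ q ∈ Set.range (algebraMap k l) := by
  have : Fact q.Prime := ⟨hq⟩
  have : CharP l q := (Algebra.charP_iff k l q).1 inferInstance
  -- `k(y₀) = l`
  have hint : IsIntegral k y₀ := Algebra.IsIntegral.isIntegral y₀
  have htop : IntermediateField.adjoin k {y₀} = ⊤ := by
    apply IntermediateField.eq_of_le_of_finrank_le le_top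
    rw [IntermediateField.finrank_top', hdeg]
    have hy' : (IntermediateField.AdjoinSimple.gen k y₀) ^ q
        = algebraMap k (IntermediateField.adjoin k {y₀}) c := by
      apply Subtype.ext
      simpa using hy
    refine le_finrank_of_pow_eq q hq (IntermediateField.AdjoinSimple.gen k y₀) c hy' ?_
    rintro ⟨d, hd⟩
    apply hn
    refine ⟨d, ?_⟩
    have := congrArg (fun x : IntermediateField.adjoin k {y₀} => (x : l)) hd
    simpa using this
  have hz : z ∈ Algebra.adjoin k {y₀} := by
    have h1 : z ∈ (IntermediateField.adjoin k {y₀}).toSubalgebra := by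
      rw [htop]; trivial
    rwa [IntermediateField.adjoin_simple_toSubalgebra_of_isAlgebraic hint.isAlgebraic] at h1
  induction hz using Algebra.adjoin_induction with
  | mem x hx =>
    rw [Set.mem_singleton_iff] at hx
    exact ⟨c, by rw [hx, hy]⟩
  | algebraMap r => exact ⟨r ^ q, by rw [map_pow]⟩
  | add x y _ _ hx hy =>
    obtain ⟨a, ha⟩ := hx
    obtain ⟨b, hb⟩ := hy
    exact ⟨a + b, by rw [map_add, ha, hb, add_pow_char]⟩
  | mul x y _ _ hx hy =>
    obtain ⟨a, ha⟩ := hx
    obtain ⟨b, hb⟩ := hy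
    exact ⟨a * b, by rw [map_mul, ha, hb, mul_pow]⟩

end Field

variable {K L : Type*} [Field K] [Field L] [Algebra K L]
variable {V : ValuationSubring K} [IsDiscreteValuationRing V] [FiniteDimensional K L] [CharZero K]
  {W : ValuationSubring L}

/-- an element of `V` is in the maximal ideal iff its valuation is `< 1`. -/
theorem mk_eq_zero_iff_aux (a : V) :
    Ideal.Quotient.mk (maximalIdeal V) a = 0 ↔ V.valuation (a : K) < 1 := by
  rw [Ideal.Quotient.eq_zero_iff_mem, ValuationSubring.valuation_lt_one_iff]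

theorem charP_quotient_aux {q : ℕ} (hq : q.Prime) (hqV : V.valuation (q : K) < 1) :
    CharP (V ⧸ maximalIdeal V) q := by
  have h0 : ((q : ℕ) : V ⧸ maximalIdeal V) = 0 := by
    have : ((q : V) : K) = (q : K) := by simp
    rw [← map_natCast (Ideal.Quotient.mk (maximalIdeal V)), mk_eq_zero_iff_aux, this]
    exact hqV
  exact (CharP.charP_iff_prime_eq_zero hq).mpr h0

/-- If the residue degree of `W` over `V` is `q` and one residue `y₀`, not in the residue field of
`V`, has its `q`-th power in the residue field of `V`, then every residue has this property. -/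
theorem exists_cong_pow (hW : W.comap (algebraMap K L) = V) {q : ℕ} (hq : q.Prime)
    (hqV : V.valuation (q : K) < 1) (hdeg : (centre V W).inertiaDeg V = q)
    {y₀ : L} (hy₀ : y₀ ∈ W) {c : K} (hc : W.valuation (algebraMap K L c - y₀ ^ q) < 1)
    (hn : ∀ y' : K, ¬ W.valuation (algebraMap K L y' - y₀) < 1) {y : L} (hy : y ∈ W) :
    ∃ y' : K, W.valuation (algebraMap K L y' - y ^ q) < 1 := by
  have hmax := centre_isMaximal hW
  have hlies := centre_liesOver hW
  have hchar := charP_quotient_aux (V := V) hq hqV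
  letI : Field (V ⧸ maximalIdeal V) := Ideal.Quotient.field _
  letI : Field (IC V L ⧸ centre V W) := Ideal.Quotient.field _
  have hfr : Module.finrank (V ⧸ maximalIdeal V) (IC V L ⧸ centre V W) = q := by
    rw [← Ideal.inertiaDeg_eq_of_isMaximal (maximalIdeal V) (centre V W), hdeg]
  have hfin : FiniteDimensional (V ⧸ maximalIdeal V) (IC V L ⧸ centre V W) :=
    Module.finite_of_finrank_pos (by rw [hfr]; exact hq.pos)
  obtain ⟨b₀, hb₀⟩ := exists_IC_cong hW hy₀
  obtain ⟨b, hb⟩ := exists_IC_cong hW hy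
  have hy₀' : W.valuation y₀ ≤ 1 := (W.valuation_le_one_iff _).mpr hy₀
  have hy' : W.valuation y ≤ 1 := (W.valuation_le_one_iff _).mpr hy
  have hcV : c ∈ V := by
    rw [← hW, ValuationSubring.mem_comap, ← ValuationSubring.valuation_le_one_iff]
    exact Cong.le_one (V := W) hc (by rw [map_pow]; exact pow_le_one' hy₀' q)
  -- translation of congruences
  have key : ∀ (x : IC V L) (d : V), Ideal.Quotient.mk (centre V W) x =
      algebraMap (V ⧸ maximalIdeal V) (IC V L ⧸ centre V W) (Ideal.Quotient.mk _ d) ↔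
      W.valuation ((x : L) - algebraMap K L (d : K)) < 1 := by
    intro x d
    rw [Ideal.Quotient.algebraMap_mk_of_liesOver, Ideal.Quotient.eq, mem_centre hW.ge]
    rfl
  have h1 : (Ideal.Quotient.mk (centre V W) b₀) ^ q =
      algebraMap (V ⧸ maximalIdeal V) (IC V L ⧸ centre V W) (Ideal.Quotient.mk _ ⟨c, hcV⟩) := by
    rw [← map_pow, key]
    have : Cong W ((b₀ : L) ^ q) (y₀ ^ q) := Cong.pow hb₀ hy₀' q
    exact this.trans (Cong.symm hc)
  have h2 : Ideal.Quotient.mk (centre V W) b₀ ∉
      Set.range (algebraMap (V ⧸ maximalIdeal V) (IC V L ⧸ centre V W)) := by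
    rintro ⟨d, hd⟩
    obtain ⟨d, rfl⟩ := Ideal.Quotient.mk_surjective d
    have h3 := (key b₀ d).mp hd.symm
    exact hn d ((Cong.symm h3).trans hb₀)
  obtain ⟨d, hd⟩ := pow_mem_range_of_finrank_eq q hq hfr _ _ h1 h2
    (Ideal.Quotient.mk (centre V W) b)
  obtain ⟨d, rfl⟩ := Ideal.Quotient.mk_surjective d
  rw [← map_pow] at hd
  have h3 := (key (b ^ q) d).mp hd.symm
  refine ⟨d, ?_⟩
  have h4 : Cong W ((b : L) ^ q) (y ^ q) := Cong.pow hb hy' q
  exact (Cong.symm h3).trans h4

end Fermat.Agent.S36.BP.BuildHalf
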