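/-
S36, block BP / BUILD-HALF (sub-architect helper154): `TABLE ⇒ Half`.  FINAL CONSUMER FORMS.

* `half_of_table'` : the hypotheses on the purely inseparable component `Vb` are reduced to ONE
  element `y₀ ∈ Vb` with `y₀ ^ q ≡ c`, `c ∈ F₁`, and `y₀` not congruent to an element of `F₁`.
* `half_of_hom` : the same for a homomorphism of fields `φ : F₁ →+* F` (no `Algebra` instance); the
  norm map is definitionally `Fermat.Agent.S36.embNorm φ`.
-/
import Fermat.Agent.S36.BP.Build.Half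
import Fermat.Agent.S36.BP.Build.HalfInsep

set_option autoImplicit false

namespace Fermat.Agent.S36.BP.BuildHalf

open IsLocalRing IsDedekindDomain Fermat.Agent.S18

theorem half_of_table' {F₁ F : Type*} [Field F₁] [Field F] [Algebra F₁ F] [CharZero F₁] {q : ℕ}
    (hq : q.Prime) (hdeg : Module.finrank F₁ F = q)
    {U U' : ValuationSubring F₁} (hU : IsUnif U (q : F₁)) (hU' : IsUnif U' (q : F₁))
    {Va Vm Vb : ValuationSubring F} {ϖm : F}
    (ha : Va.comap (algebraMap F₁ F) = U) (hm : Vm.comap (algebraMap F₁ F) = U)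
    (hb : Vb.comap (algebraMap F₁ F) = U') (hne : Va ≠ Vm)
    (hua : IsUnif Va (q : F)) (hum : IsUnif Vm ϖm)
    (hram : Vm.valuation ϖm ^ (q - 1) = Vm.valuation (q : F)) (hub : IsUnif Vb (q : F))
    {y₀ : F} (hy₀ : y₀ ∈ Vb) {c : F₁} (hc : Vb.valuation (algebraMap F₁ F c - y₀ ^ q) < 1)
    (hn : ∀ y' : F₁, ¬ Vb.valuation (algebraMap F₁ F y' - y₀) < 1) :
    Half q ϖm (algebraMap F₁ F).fieldRange
      ((algebraMap F₁ F : F₁ →* F).comp (Algebra.norm F₁)) Va Vm Vb := by
  have hfin : FiniteDimensional F₁ F := Module.finite_of_finrank_pos (by rw [hdeg]; exact hq.pos)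
  have hdU' : IsDiscreteValuationRing U' := hU'.isDiscreteValuationRing
  have hqU' : U'.valuation (q : F₁) < 1 := approx_val_unif_lt_one hU'
  have TB : Tab U' (fun _ : Unit => Vb) (fun _ => 1) (fun _ => q) := by
    refine tab_of_table (fun _ => hb) (fun _ _ _ => rfl) ?_ ?_ ?_
    · intro _
      have := centre_isPrime (V := U') (W := Vb) hb.ge
      exact Ideal.ramificationIdx_pos (centre U' Vb) U'
    · intro _
      exact le_inertiaDeg hb hq hqU' hy₀ hc hn
    · simp [hdeg]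
  exact half_of_table hq hdeg hU hU' ha hm hb hne hua hum hram hub
    (fun y hy => exists_cong_pow hb hq hqU' (TB.inertia ()) hy₀ hc hn hy) ⟨y₀, hy₀, hn⟩

theorem half_of_hom {F₁ F : Type*} [Field F₁] [Field F] [CharZero F₁] (φ : F₁ →+* F) {q : ℕ}
    (hq : q.Prime) (hdeg : (letI := φ.toAlgebra; Module.finrank F₁ F) = q)
    {U U' : ValuationSubring F₁} (hU : IsUnif U (q : F₁)) (hU' : IsUnif U' (q : F₁))
    {Va Vm Vb : ValuationSubring F} {ϖm : F}
    (ha : Va.comap φ = U) (hm : Vm.comap φ = U) (hb : Vb.comap φ = U') (hne : Va ≠ Vm)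
    (hua : IsUnif Va (q : F)) (hum : IsUnif Vm ϖm)
    (hram : Vm.valuation ϖm ^ (q - 1) = Vm.valuation (q : F)) (hub : IsUnif Vb (q : F))
    {y₀ : F} (hy₀ : y₀ ∈ Vb) {c : F₁} (hc : Vb.valuation (φ c - y₀ ^ q) < 1)
    (hn : ∀ y' : F₁, ¬ Vb.valuation (φ y' - y₀) < 1) :
    Half q ϖm φ.fieldRange
      ((φ : F₁ →* F).comp (letI := φ.toAlgebra; Algebra.norm F₁)) Va Vm Vb := by
  letI := φ.toAlgebra
  exact half_of_table' hq hdeg hU hU' ha hm hb hne hua hum hram hub hy₀ hc hn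

theorem norm_const_hom {K₀ F₁ F : Type*} [Field K₀] [Field F₁] [Field F] [Algebra K₀ F₁]
    [Algebra K₀ F] (φ : F₁ →ₐ[K₀] F) {q : ℕ}
    (hdeg : (letI := φ.toRingHom.toAlgebra; Module.finrank F₁ F) = q) (a : K₀) :
    ((φ.toRingHom : F₁ →* F).comp (letI := φ.toRingHom.toAlgebra; Algebra.norm F₁))
      (algebraMap K₀ F a) = algebraMap K₀ F a ^ q := by
  letI := φ.toRingHom.toAlgebra
  haveI : IsScalarTower K₀ F₁ F := IsScalarTower.of_algebraMap_eq fun x => (φ.commutes x).symm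
  exact norm_const hdeg a

end Fermat.Agent.S36.BP.BuildHalf
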