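/-
S36, block BP/Build (helper192): pointwise density from `BAD.Model.GoodBelow`:
`R ∩ E` surjects onto `R / (R ∩ 𝔪_W)`.  This gives the fields `dense_a`, `dense_m` of
`S36.BP.HalfPt`.
-/
import Mathlib
import Fermat.Agent.S18.Defs
import Fermat.Agent.S36.BP.Defs
import Fermat.Agent.S36.BP.Rad
import Fermat.Agent.BAD.Model.Defs

set_option autoImplicit false

namespace Fermat.Agent.BAD.Model

open Fermat.Agent.S18 Fermat.Agent.S36.BP

variable {K₀ F : Type*} [Field K₀] [Field F] [Algebra K₀ F]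
variable {A₀ : ValuationSubring K₀} {R : Subring F}

/-- density at the units of `R`. -/
theorem GoodBelow.dense_unit (hR : IsPt A₀ R) {W : ValuationSubring F} {E : Subfield F}
    (hle : ∀ r ∈ R, r ∈ W) (hG : GoodBelow W E R) {r : F} (hr : RUnit R r) :
    ∃ r' ∈ R, r' ∈ E ∧ W.valuation (r' - r) < 1 := by
  have hr1 : W.valuation r = 1 := hr.val_eq_one hle
  obtain ⟨y', hy'E, hy'⟩ := hG.dense r (hle r hr.mem)
  have hcg : Cg W y' r := hy'
  have hy'1 : W.valuation y' = 1 := hcg.val_eq_one hr1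
  obtain ⟨η, hηR, hηE, hη | hη⟩ := hG.branch y' hy'E hy'1
  · exact ⟨η, hηR, hηE, (Cg.symm (show Cg W y' η from hη)).trans hcg⟩
  · have h1 : Cg W η r⁻¹ := (Cg.symm (show Cg W y'⁻¹ η from hη)).trans (hcg.inv hr1)
    have h2 : η - r⁻¹ ∈ rad R := mem_rad_of_val_lt hle (R.sub_mem hηR hr.inv_mem) h1
    have hηu : RUnit R η := by
      rcases runit_or_mem_rad hηR with h | h
      · exact h
      · exfalso
        have h3 : r⁻¹ ∈ rad R := by
          have : r⁻¹ = η + -(η - r⁻¹) := by ring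
          rw [this]
          exact hR.add_rad _ h _ (neg_mem_rad h2)
        exact h3.2 hr.inv
    refine ⟨η⁻¹, hηu.inv_mem, E.inv_mem hηE, ?_⟩
    have h4 : Cg W η⁻¹ (r⁻¹)⁻¹ := h1.inv (val_inv_eq_one hr1)
    rwa [inv_inv] at h4

/-- **Pointwise density**: `R ∩ E` surjects onto `R / (R ∩ 𝔪_W)`. -/
theorem GoodBelow.dense_pt (hR : IsPt A₀ R) {W : ValuationSubring F} {E : Subfield F}
    (hle : ∀ r ∈ R, r ∈ W) (hG : GoodBelow W E R) :
    ∀ r ∈ R, ∃ r' ∈ R, r' ∈ E ∧ W.valuation (r' - r) < 1 := by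
  intro r hr
  rcases runit_or_mem_rad hr with h | h
  · exact hG.dense_unit hR hle h
  · have h1 : RUnit R (r + 1) := by
      rcases runit_or_mem_rad (R.add_mem hr R.one_mem) with h' | h'
      · exact h'
      · exfalso
        have h3 : (1 : F) ∈ rad R := by
          have : (1 : F) = (r + 1) + -r := by ring
          rw [this]
          exact hR.add_rad _ h' _ (neg_mem_rad h)
        exact h3.2 (RUnit.one R)
    obtain ⟨r', hr'R, hr'E, hr'⟩ := hG.dense_unit hR hle h1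
    refine ⟨r' - 1, R.sub_mem hr'R R.one_mem, E.sub_mem hr'E E.one_mem, ?_⟩
    have : r' - 1 - r = r' - (r + 1) := by ring
    rwa [this]

/-- the same with a bigger subfield. -/
theorem GoodBelow.dense_pt_of_le (hR : IsPt A₀ R) {W : ValuationSubring F} {E E' : Subfield F}
    (hE : E ≤ E') (hle : ∀ r ∈ R, r ∈ W) (hG : GoodBelow W E R) :
    ∀ r ∈ R, ∃ r' ∈ R, r' ∈ E' ∧ W.valuation (r' - r) < 1 := by
  intro r hr
  obtain ⟨r', h1, h2, h3⟩ := hG.dense_pt hR hle r hr
  exact ⟨r', h1, hE h2, h3⟩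

/-- **`HalfPt` from `GoodBelow` and the congruence `N b ≡ b ^ q`** (in the form: the norm
preserves the units of `R`). -/
theorem halfPt_of_goodBelow (hR : IsPt A₀ R) {Va Vm : ValuationSubring F} {Ea Em E : Subfield F}
    {N : F →* F} (hEa : Ea ≤ E) (hEm : Em ≤ E) (hla : ∀ r ∈ R, r ∈ Va) (hlm : ∀ r ∈ R, r ∈ Vm)
    (hGa : GoodBelow Va Ea R) (hGm : GoodBelow Vm Em R)
    (hN : ∀ ε : F, RUnit R ε → RUnit R (N ε)) : HalfPt E N Va Vm R :=
  ⟨hGa.dense_pt_of_le hR hEa hla, hGm.dense_pt_of_le hR hEm hlm, hN⟩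

end Fermat.Agent.BAD.Model
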