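/-
S36, block BP / BUILD-HALF (sub-architect helper154): `TABLE ⇒ Half`.  Node H6.
`∑ e f ≥ n` ⇒ equalities and exhaustion of the primes.
-/
import Fermat.Agent.S36.BP.Build.HalfVal

set_option autoImplicit false
set_option linter.unusedSectionVars false
set_option linter.style.haveILetI false

namespace Fermat.Agent.S36.BP.BuildHalf

open IsLocalRing IsDedekindDomain

variable {K L : Type*} [Field K] [Field L] [Algebra K L]
variable {V : ValuationSubring K} [IsDiscreteValuationRing V] [FiniteDimensional K L] [CharZero K]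
  {ι : Type*} [Fintype ι] {W : ι → ValuationSubring L} {e f : ι → ℕ}

/-- `IsIntegralClosure.rank`-type statement. -/
theorem finrank_IC : Module.finrank V (IC V L) = Module.finrank K L := by
  have : Module.IsTorsionFree V L := Module.IsTorsionFree.trans_faithfulSMul V K L
  exact IsIntegralClosure.rank V K L (IC V L)

theorem liesOver_of_isPrime (Q : Ideal (IC V L)) [Q.IsPrime] (hQ : Q ≠ ⊥) :
    Q.LiesOver (maximalIdeal V) := by
  have h0 : Q.under V ≠ ⊥ := fun h => hQ (Ideal.eq_bot_of_comap_eq_bot h)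
  have hp : (Q.under V).IsPrime := inferInstance
  exact ⟨(IsLocalRing.eq_maximalIdeal (hp.isMaximal h0)).symm⟩

/-- arithmetic core: `a ≤ a'`, `b ≤ b'`, `a * b = a' * b'`, `0 < a'`, `0 < b'` force equalities. -/
private theorem eq_of_mul_eq {a a' b b' : ℕ} (ha : a ≤ a') (hb : b ≤ b') (ha' : 0 < a')
    (hb' : 0 < b') (h : a * b = a' * b') : a' = a ∧ b' = b := by
  constructor
  · by_contra hne
    have hlt : a < a' := lt_of_le_of_ne ha (Ne.symm hne)
    have : a * b < a' * b' :=
      lt_of_le_of_lt (Nat.mul_le_mul_left a hb) (Nat.mul_lt_mul_of_pos_right hlt hb')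
    omega
  · by_contra hne
    have hlt : b < b' := lt_of_le_of_ne hb (Ne.symm hne)
    have : a * b < a' * b' :=
      lt_of_le_of_lt (Nat.mul_le_mul_right b ha) (Nat.mul_lt_mul_of_pos_left hlt ha')
    omega

/-- `Ideal.sum_ramification_inertia_eq_finrank` (`Mathlib/RingTheory/RamificationInertia/Basic.lean`):
`n = ∑_{Q | 𝔪_V} e(Q) f(Q) ≥ ∑ i, e(P i) f(P i) ≥ ∑ i, e i * f i ≥ n` with `P i = centre V (W i)`
pairwise distinct (`eq_of_centre_eq`), all terms positive (`ramificationIdx_pos`,
`inertiaDeg_pos`). -/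
theorem count_core (hW : ∀ i, (W i).comap (algebraMap K L) = V) (hinj : Function.Injective W)
    (he : ∀ i, e i ≤ (centre V (W i)).ramificationIdx V)
    (hf : ∀ i, f i ≤ (centre V (W i)).inertiaDeg V)
    (hsum : Module.finrank K L ≤ ∑ i, e i * f i) :
    (∀ i, (centre V (W i)).ramificationIdx V = e i) ∧
    (∀ i, (centre V (W i)).inertiaDeg V = f i) ∧
    ∀ Q : Ideal (IC V L), Q.IsPrime → Q ≠ ⊥ → ∃ i, Q = centre V (W i) := by
  classical
  have hfin : ((maximalIdeal V).primesOver (IC V L)).Finite :=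
    Algebra.QuasiFinite.finite_primesOver _
  letI : Fintype ((maximalIdeal V).primesOver (IC V L)) := hfin.fintype
  have htot := Ideal.sum_ramification_inertia_eq_finrank (maximalIdeal V) (IC V L)
  rw [finrank_IC] at htot
  -- the map `i ↦ centre V (W i)`
  let j : ι → (maximalIdeal V).primesOver (IC V L) := fun i =>
    ⟨centre V (W i), centre_isPrime (hW i).ge, centre_liesOver (hW i)⟩
  have hj : Function.Injective j := fun i i' h =>
    hinj (eq_of_centre_eq (hW i) (hW i') (congrArg Subtype.val h))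
  have hpos : ∀ q : (maximalIdeal V).primesOver (IC V L),
      0 < q.1.ramificationIdx V * q.1.inertiaDeg V := fun q => by
    haveI : q.1.IsPrime := q.2.1
    exact Nat.mul_pos (Ideal.ramificationIdx_pos _ _) (Ideal.inertiaDeg_pos _ _)
  have h1 : ∑ i, e i * f i ≤ ∑ i, (j i).1.ramificationIdx V * (j i).1.inertiaDeg V :=
    Finset.sum_le_sum fun i _ => Nat.mul_le_mul (he i) (hf i)
  have h2 : ∑ i, (j i).1.ramificationIdx V * (j i).1.inertiaDeg V
      = ∑ q ∈ Finset.univ.image j, q.1.ramificationIdx V * q.1.inertiaDeg V :=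
    (Finset.sum_image (s := Finset.univ) (g := j)
      (f := fun q : (maximalIdeal V).primesOver (IC V L) =>
        q.1.ramificationIdx V * q.1.inertiaDeg V) fun a _ b _ h => hj h).symm
  have h3 : ∑ q ∈ Finset.univ.image j, q.1.ramificationIdx V * q.1.inertiaDeg V
      ≤ ∑ q : (maximalIdeal V).primesOver (IC V L), q.1.ramificationIdx V * q.1.inertiaDeg V :=
    Finset.sum_le_sum_of_subset (Finset.subset_univ _)
  have hterm : ∀ i, e i * f i = (j i).1.ramificationIdx V * (j i).1.inertiaDeg V := by
    have := (Finset.sum_eq_sum_iff_of_le (s := Finset.univ)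
      (f := fun i => e i * f i)
      (g := fun i => (j i).1.ramificationIdx V * (j i).1.inertiaDeg V)
      fun i _ => Nat.mul_le_mul (he i) (hf i)).1 (by omega)
    exact fun i => this i (Finset.mem_univ i)
  have hboth : ∀ i, (centre V (W i)).ramificationIdx V = e i ∧
      (centre V (W i)).inertiaDeg V = f i := fun i => by
    haveI : (centre V (W i)).IsPrime := centre_isPrime (hW i).ge
    exact eq_of_mul_eq (he i) (hf i) (Ideal.ramificationIdx_pos _ _) (Ideal.inertiaDeg_pos _ _) (hterm i)
  refine ⟨fun i => (hboth i).1, fun i => (hboth i).2, fun Q hQ hQ0 => ?_⟩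
  haveI := hQ
  have hQl : Q.LiesOver (maximalIdeal V) := liesOver_of_isPrime Q hQ0
  by_contra hcon
  have hnot : (⟨Q, hQ, hQl⟩ : (maximalIdeal V).primesOver (IC V L)) ∉ Finset.univ.image j := by
    intro hmem
    obtain ⟨i, -, hi⟩ := Finset.mem_image.1 hmem
    exact hcon ⟨i, (congrArg Subtype.val hi).symm⟩
  have h4 : ∑ q ∈ Finset.univ.image j, q.1.ramificationIdx V * q.1.inertiaDeg V
      < ∑ q : (maximalIdeal V).primesOver (IC V L), q.1.ramificationIdx V * q.1.inertiaDeg V :=
    Finset.sum_lt_sum_of_subset (Finset.subset_univ _) (Finset.mem_univ _) hnot (hpos _)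
      fun q _ _ => Nat.zero_le _
  omega

end Fermat.Agent.S36.BP.BuildHalf
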