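/-
S36, block BP / BUILD-HALF (sub-architect helper154): `TABLE ⇒ Half`.  Node H7.
Factorisation of the maximal ideal of `V` in `IC V L`; `Tab` from the table.
-/
import Fermat.Agent.S36.BP.Build.HalfCount

set_option autoImplicit false

namespace Fermat.Agent.S36.BP.BuildHalf

open IsLocalRing IsDedekindDomain

variable {K L : Type*} [Field K] [Field L] [Algebra K L]
variable {V : ValuationSubring K} [IsDiscreteValuationRing V] [FiniteDimensional K L] [CharZero K]
  {ι : Type*} [Fintype ι] {W : ι → ValuationSubring L} {e f : ι → ℕ}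

/-- Compare `normalizedFactors` (`Ideal.IsDedekindDomain.ramificationIdx_eq_normalizedFactors_count`,
`Ideal.prod_normalizedFactors_eq_self`): the multiset of prime factors of `𝔪_V (IC V L)` is
`∑ i, replicate (e i) (centre V (W i))`. -/
theorem map_maximalIdeal_eq_prod (hW : ∀ i, (W i).comap (algebraMap K L) = V)
    (hinj : Function.Injective W)
    (he : ∀ i, (centre V (W i)).ramificationIdx V = e i)
    (hex : ∀ Q : Ideal (IC V L), Q.IsPrime → Q ≠ ⊥ → ∃ i, Q = centre V (W i)) :
    (maximalIdeal V).map (algebraMap V (IC V L)) = ∏ i, centre V (W i) ^ e i := by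
  classical
  have hm0 : maximalIdeal V ≠ 0 := IsDiscreteValuationRing.not_a_field V
  rw [Ideal.map_algebraMap_eq_finsetProd_pow hm0]
  have hcinj : Function.Injective (fun i => centre V (W i)) :=
    fun i j h => hinj (eq_of_centre_eq (hW i) (hW j) h)
  have hset : ((maximalIdeal V).primesOver (IC V L)).toFinset =
      Finset.univ.image (fun i => centre V (W i)) := by
    ext Q
    simp only [Set.mem_toFinset, Finset.mem_image, Finset.mem_univ, true_and]
    constructor
    · rintro ⟨hQp, hQl⟩
      have hQ0 : Q ≠ ⊥ := Ideal.ne_bot_of_liesOver_of_ne_bot hm0 Q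
      obtain ⟨i, hi⟩ := hex Q hQp hQ0
      exact ⟨i, hi.symm⟩
    · rintro ⟨i, rfl⟩
      exact ⟨centre_isPrime (hW i).ge, centre_liesOver (hW i)⟩
  rw [hset, Finset.prod_image (fun i _ j _ h => hcinj h)]
  exact Finset.prod_congr rfl fun i _ => by rw [he i]

theorem tab_of_table (hW : ∀ i, (W i).comap (algebraMap K L) = V) (hinj : Function.Injective W)
    (he : ∀ i, e i ≤ (centre V (W i)).ramificationIdx V)
    (hf : ∀ i, f i ≤ (centre V (W i)).inertiaDeg V)
    (hsum : Module.finrank K L ≤ ∑ i, e i * f i) : Tab V W e f := by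
  obtain ⟨h1, h2, h3⟩ := count_core hW hinj he hf hsum
  exact ⟨hW, hinj, h2, h3, map_maximalIdeal_eq_prod hW hinj h1 h3⟩

end Fermat.Agent.S36.BP.BuildHalf
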