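/-
S36, block BP / BUILD-HALF (sub-architect helper154): `TABLE ⇒ Half`.  Node H5.
The statements are frozen interfaces
(proved by helper153, task 1525).
Lower bound for the residue degree.
-/
import Fermat.Agent.S36.BP.Build.HalfVal
import Fermat.Agent.S36.BP.Build.HalfField

set_option autoImplicit false

namespace Fermat.Agent.S36.BP.BuildHalf

open IsLocalRing IsDedekindDomain

variable {K L : Type*} [Field K] [Field L] [Algebra K L]
variable {V : ValuationSubring K} [IsDiscreteValuationRing V] [FiniteDimensional K L] [CharZero K]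
  {W : ValuationSubring L}

/-- `Ideal.inertiaDeg_eq_of_isMaximal` (instances from `centre_isMaximal`, `centre_liesOver`),
`exists_IC_cong` to replace `y` by `b : IC V L`, then `le_finrank_of_pow_eq` in
`IC V L ⧸ centre V W` over `V ⧸ 𝔪_V` (which has characteristic `q` by `hqV`). -/
theorem le_inertiaDeg (hW : W.comap (algebraMap K L) = V) {q : ℕ} (hq : q.Prime)
    (hqV : V.valuation (q : K) < 1) {y : L} (hy : y ∈ W) {c : K}
    (hc : W.valuation (algebraMap K L c - y ^ q) < 1)
    (hn : ∀ y' : K, ¬ W.valuation (algebraMap K L y' - y) < 1) :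
    q ≤ (centre V W).inertiaDeg V := by
  haveI := centre_isMaximal hW
  haveI := centre_liesOver hW
  rw [Ideal.inertiaDeg_eq_of_isMaximal (maximalIdeal V) (centre V W)]
  letI : Field (V ⧸ maximalIdeal V) := Ideal.Quotient.field _
  letI : Field (IC V L ⧸ centre V W) := Ideal.Quotient.field _
  -- characteristic `q`
  have hq0 : ((q : ℕ) : V ⧸ maximalIdeal V) = 0 := by
    have h1 : ((q : ℕ) : V) ∈ maximalIdeal V := by
      rw [ValuationSubring.valuation_lt_one_iff]
      simpa using hqV
    have h2 := Ideal.Quotient.eq_zero_iff_mem.2 h1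
    simpa using h2
  haveI : CharP (V ⧸ maximalIdeal V) q := (CharP.charP_iff_prime_eq_zero hq).2 hq0
  -- `c` lies in `V`
  have hyq : y ^ q ∈ W := pow_mem hy q
  have hcW : algebraMap K L c ∈ W := by
    have h1 : algebraMap K L c - y ^ q ∈ W := (W.valuation_le_one_iff _).1 hc.le
    have := W.add_mem _ _ h1 hyq
    simpa using this
  have hcV : c ∈ V := by
    rw [← hW]
    exact hcW
  obtain ⟨b, hb⟩ := exists_IC_cong hW hy
  have hbW : (b : L) ∈ W := mem_of_isIntegral hW.ge b.2
  -- `b ^ q ≡ y ^ q`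
  have hbq : W.valuation ((b : L) ^ q - y ^ q) < 1 := by
    have h1 : (⟨(b : L), hbW⟩ - ⟨y, hy⟩ : W) ∈ maximalIdeal W := by
      rw [ValuationSubring.valuation_lt_one_iff]
      exact hb
    obtain ⟨s, hs⟩ := sub_dvd_pow_sub_pow (⟨(b : L), hbW⟩ : W) ⟨y, hy⟩ q
    have h2 : ((⟨(b : L), hbW⟩ : W) ^ q - (⟨y, hy⟩ : W) ^ q) ∈ maximalIdeal W := by
      rw [hs]
      exact Ideal.mul_mem_right _ _ h1
    rw [ValuationSubring.valuation_lt_one_iff] at h2
    exact h2
  refine le_finrank_of_pow_eq q hq (Ideal.Quotient.mk (centre V W) b)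
    (Ideal.Quotient.mk (maximalIdeal V) ⟨c, hcV⟩) ?_ ?_
  · rw [Ideal.Quotient.algebraMap_mk_of_liesOver, ← map_pow, Ideal.Quotient.eq, mem_centre hW.ge]
    have e : ((b ^ q - algebraMap V (IC V L) ⟨c, hcV⟩ : IC V L) : L) =
        ((b : L) ^ q - y ^ q) - (algebraMap K L c - y ^ q) := by
      have : algebraMap V L ⟨c, hcV⟩ = algebraMap K L c := rfl
      push_cast
      rw [this]
      ring
    rw [e]
    exact Valuation.map_sub_lt _ hbq hc
  · rintro ⟨z, hz⟩
    obtain ⟨y', rfl⟩ := Ideal.Quotient.mk_surjective z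
    rw [Ideal.Quotient.algebraMap_mk_of_liesOver, Ideal.Quotient.eq, mem_centre hW.ge] at hz
    apply hn (y' : K)
    have e : algebraMap K L (y' : K) - y =
        ((algebraMap V (IC V L) y' - b : IC V L) : L) + ((b : L) - y) := by
      have : algebraMap V L y' = algebraMap K L (y' : K) := rfl
      push_cast
      rw [this]
      ring
    rw [e]
    exact Valuation.map_add_lt _ hz hb

end Fermat.Agent.S36.BP.BuildHalf
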