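/-
S36, block BP / BUILD-HALF (sub-architect helper154): `TABLE ⇒ Half`.  Node H10.
Both statements are proved here; the statements are frozen interfaces.
Orders of norms.
-/
import Fermat.Agent.S36.BP.Build.HalfNorm
import Fermat.Agent.S36.BP.Approx
import Fermat.Agent.S36.BP.Cong
import Fermat.Agent.S18.Chart.DedUnif

set_option autoImplicit false

namespace Fermat.Agent.S36.BP.BuildHalf

open IsLocalRing IsDedekindDomain Fermat.Agent.S18

variable {K L : Type*} [Field K] [Field L] [Algebra K L]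
variable {V : ValuationSubring K} [FiniteDimensional K L] [CharZero K]

/-- One valuation above, unramified: `y = ϖ ^ m * u`, `N y = ϖ ^ (n m) * N u`, `Tab.norm_unit`
(`have := hV.isDiscreteValuationRing`). -/
theorem ord_of_tab_one {ϖ : K} (hV : IsUnif V ϖ) {W : Unit → ValuationSubring L} {f : Unit → ℕ}
    (T : Tab V W (fun _ => 1) f) (hW : IsUnif (W ()) (algebraMap K L ϖ)) (y : L) :
    (W ()).valuation (algebraMap K L (Algebra.norm K y)) =
      (W ()).valuation y ^ Module.finrank K L := by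
  have := hV.isDiscreteValuationRing
  have hn : Module.finrank K L ≠ 0 := Module.finrank_pos.ne'
  rcases eq_or_ne y 0 with rfl | hy0
  · rw [Algebra.norm_zero, map_zero, map_zero, zero_pow hn]
  obtain ⟨m, hm1, hm2⟩ := hW.exists_zpow y hy0
  set u : L := y / algebraMap K L ϖ ^ m with hu
  have hϖ0 : algebraMap K L ϖ ≠ 0 := hW.ne_zero
  have hu1 : (W ()).valuation u = 1 := by
    have h1 : (W ()).valuation u ≤ 1 := ((W ()).valuation_le_one_iff _).2 hm1
    have h2 : (W ()).valuation u⁻¹ ≤ 1 := ((W ()).valuation_le_one_iff _).2 hm2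
    rw [map_inv₀] at h2
    have hu0 : (W ()).valuation u ≠ 0 := by
      rw [Valuation.ne_zero_iff]
      exact div_ne_zero hy0 (zpow_ne_zero _ hϖ0)
    exact le_antisymm h1 ((inv_le_one₀ (zero_lt_iff.2 hu0)).1 h2)
  have hy : y = algebraMap K L (ϖ ^ m) * u := by
    rw [hu, map_zpow₀]
    field_simp
  have hNu : V.valuation (Algebra.norm K u) = 1 := T.norm_unit (fun i => by cases i; exact hu1)
  -- transfer to `W`
  have hNu' : (W ()).valuation (algebraMap K L (Algebra.norm K u)) = 1 := by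
    have hl := T.lies ()
    have h0 : Algebra.norm K u ≠ 0 := by
      intro h0
      rw [h0, map_zero] at hNu
      exact zero_ne_one hNu
    have h1 : Algebra.norm K u ∈ V := (V.valuation_le_one_iff _).1 hNu.le
    have h2 : (Algebra.norm K u)⁻¹ ∈ V := by
      rw [← V.valuation_le_one_iff, map_inv₀, hNu, inv_one]
    rw [← hl] at h1 h2
    have h1' : (W ()).valuation (algebraMap K L (Algebra.norm K u)) ≤ 1 :=
      ((W ()).valuation_le_one_iff _).2 h1
    have h2' : (W ()).valuation (algebraMap K L (Algebra.norm K u)⁻¹) ≤ 1 :=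
      ((W ()).valuation_le_one_iff _).2 h2
    rw [map_inv₀, map_inv₀] at h2'
    have h3 : (W ()).valuation (algebraMap K L (Algebra.norm K u)) ≠ 0 := by
      rw [Valuation.ne_zero_iff]
      exact (map_ne_zero _).2 h0
    exact le_antisymm h1' ((inv_le_one₀ (zero_lt_iff.2 h3)).1 h2')
  conv_lhs => rw [hy, map_mul, Algebra.norm_algebraMap, map_mul, map_mul, hNu', mul_one]
  conv_rhs => rw [hy, map_mul, hu1, mul_one]
  rw [map_pow, map_pow]

/-- auxiliary (H10b): the valuation of a uniformiser is neither `0` nor `1`. -/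
theorem ordTwo_val_unif {M : Type*} [Field M] {U : ValuationSubring M} {π : M} (h : IsUnif U π) :
    U.valuation π ≠ 0 ∧ U.valuation π < 1 :=
  ⟨(U.valuation.ne_zero_iff).2 h.ne_zero, approx_val_unif_lt_one h⟩

/-- auxiliary (H10b): every nonzero element has an order. -/
theorem ordTwo_exists_val {M : Type*} [Field M] {U : ValuationSubring M} {π : M} (h : IsUnif U π)
    {y : M} (hy : y ≠ 0) : ∃ a : ℤ, U.valuation y = U.valuation π ^ a := by
  have hπ := h.ne_zero
  obtain ⟨a, h1, h2⟩ := h.exists_zpow y hy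
  refine ⟨a, ?_⟩
  have h3 : U.valuation (y / π ^ a) = 1 :=
    (valuation_eq_one_iff_mem (div_ne_zero hy (zpow_ne_zero _ hπ))).mpr ⟨h1, h2⟩
  rw [map_div₀, map_zpow₀, div_eq_one_iff_eq (zpow_ne_zero _ (ordTwo_val_unif h).1)] at h3
  exact h3

/-- auxiliary (H10b): the order is well defined. -/
theorem ordTwo_zpow_inj {M : Type*} [Field M] {U : ValuationSubring M} {π : M} (h : IsUnif U π)
    {a b : ℤ} (hab : U.valuation π ^ a = U.valuation π ^ b) : a = b :=
  zpow_right_injective₀ (zero_lt_iff.2 (ordTwo_val_unif h).1) (ordTwo_val_unif h).2.ne hab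

/-- auxiliary (H10b): a nonunit has positive order. -/
theorem ordTwo_one_le {M : Type*} [Field M] {U : ValuationSubring M} {π : M} (h : IsUnif U π)
    {a : ℤ} (ha : U.valuation π ^ a < 1) : 1 ≤ a := by
  by_contra hcon
  have h0 : a ≤ 0 := by omega
  have h1 : (1 : U.ValueGroup) ≤ U.valuation π ^ a := by
    obtain ⟨k, rfl⟩ : ∃ k : ℕ, a = -(k : ℤ) := ⟨(-a).toNat, by omega⟩
    rw [zpow_neg, zpow_natCast]
    exact (one_le_inv₀ (zero_lt_iff.2 (pow_ne_zero _ (ordTwo_val_unif h).1))).mpr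
      (pow_le_one' (ordTwo_val_unif h).2.le k)
  exact absurd ha (not_lt.mpr h1)

/-- Two valuations above, `(e, f) = (1, 1), (n - 1, 1)`.  Take `t` with orders `(0, 1)`
(`exists_prescribed_orders`) and `z = ϖ / t ^ (n - 1)`, of orders `(1, 0)`.  `N t = ϖ ^ τ * unit`,
`N z = ϖ ^ ζ * unit` with `τ, ζ ≥ 1` (`Tab.norm_mem`, `Tab.norm_lt_one`) and
`(n - 1) τ + ζ = n` (`N ϖ = ϖ ^ n`), so `τ = ζ = 1`.  Finally `y / (z ^ a * t ^ b)` is a unit at both
valuations (`Tab.norm_unit`). -/
theorem ord_of_tab_two {ϖ : K} (hV : IsUnif V ϖ) {W : Fin 2 → ValuationSubring L} {n : ℕ}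
    (hn : Module.finrank K L = n) (hn2 : 2 ≤ n)
    (T : Tab V W ![1, n - 1] ![1, 1]) (hW0 : IsUnif (W 0) (algebraMap K L ϖ)) {ϖ₁ : L}
    (hW1 : IsUnif (W 1) ϖ₁)
    (hram : (W 1).valuation ϖ₁ ^ (n - 1) = (W 1).valuation (algebraMap K L ϖ))
    (y : L) (a b : ℤ) (ha : (W 0).valuation y = (W 0).valuation (algebraMap K L ϖ) ^ a)
    (hb : (W 1).valuation y = (W 1).valuation ϖ₁ ^ b) :
    V.valuation (Algebra.norm K y) = V.valuation ϖ ^ (a + b) := by
  have := hV.isDiscreteValuationRing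
  have hϖ0 : ϖ ≠ 0 := hV.ne_zero
  have hπ0 : algebraMap K L ϖ ≠ 0 := hW0.ne_zero
  obtain ⟨hw0, hw0'⟩ := ordTwo_val_unif hW0
  obtain ⟨hw1, hw1'⟩ := ordTwo_val_unif hW1
  obtain ⟨hv, hv'⟩ := ordTwo_val_unif hV
  -- the element `t` of orders `(0, 1)`
  obtain ⟨t, ht0, ht⟩ := exists_prescribed_orders W ![algebraMap K L ϖ, ϖ₁]
    (by
      intro c
      fin_cases c
      · exact hW0
      · exact hW1) T.inj ![0, 1]
  have ht_0 : (W 0).valuation t = 1 := by simpa using ht 0
  have ht_1 : (W 1).valuation t = (W 1).valuation ϖ₁ := by simpa using ht 1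
  -- the element `z` of orders `(1, 0)`
  set z : L := algebraMap K L ϖ / t ^ (n - 1) with hz
  have hz0 : z ≠ 0 := div_ne_zero hπ0 (pow_ne_zero _ ht0)
  have hz_0 : (W 0).valuation z = (W 0).valuation (algebraMap K L ϖ) := by
    rw [hz, map_div₀, map_pow, ht_0, one_pow, div_one]
  have hz_1 : (W 1).valuation z = 1 := by
    rw [hz, map_div₀, map_pow, ht_1, hram]
    exact div_self ((Valuation.ne_zero_iff _).mpr hπ0)
  -- orders of the norms
  have hNt0 : Algebra.norm K t ≠ 0 := Algebra.norm_ne_zero_iff.mpr ht0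
  have hNz0 : Algebra.norm K z ≠ 0 := Algebra.norm_ne_zero_iff.mpr hz0
  obtain ⟨τ, hτ⟩ := ordTwo_exists_val hV hNt0
  obtain ⟨ζ, hζ⟩ := ordTwo_exists_val hV hNz0
  have htmem : ∀ i, t ∈ W i := by
    intro i
    rw [← ValuationSubring.valuation_le_one_iff]
    fin_cases i
    · exact ht_0.le
    · show (W 1).valuation t ≤ 1
      rw [ht_1]; exact hw1'.le
  have hzmem : ∀ i, z ∈ W i := by
    intro i
    rw [← ValuationSubring.valuation_le_one_iff]
    fin_cases i
    · show (W 0).valuation z ≤ 1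
      rw [hz_0]; exact hw0'.le
    · exact hz_1.le
  have hτ1 : 1 ≤ τ := by
    apply ordTwo_one_le hV
    rw [← hτ]
    exact T.norm_lt_one htmem 1 (by rw [ht_1]; exact hw1')
  have hζ1 : 1 ≤ ζ := by
    apply ordTwo_one_le hV
    rw [← hζ]
    exact T.norm_lt_one hzmem 0 (by rw [hz_0]; exact hw0')
  have hprod : algebraMap K L ϖ = z * t ^ (n - 1) := by
    rw [hz, div_mul_cancel₀ _ (pow_ne_zero _ ht0)]
  have hsum : (n : ℤ) = ζ + τ * ((n - 1 : ℕ) : ℤ) := by
    apply ordTwo_zpow_inj hV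
    have h1 := congrArg (fun u => V.valuation (Algebra.norm K u)) hprod
    simp only [Algebra.norm_algebraMap, hn, map_mul, map_pow, hτ, hζ] at h1
    rw [zpow_natCast, h1, zpow_add₀ hv, zpow_mul, zpow_natCast]
  have hk : (1 : ℤ) ≤ ((n - 1 : ℕ) : ℤ) := by
    have : 1 ≤ n - 1 := by omega
    exact_mod_cast this
  have hn' : (n : ℤ) = ((n - 1 : ℕ) : ℤ) + 1 := by
    have : n = (n - 1) + 1 := by omega
    exact_mod_cast this
  have hτ' : τ = 1 := by nlinarith
  have hζ' : ζ = 1 := by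
    rw [hτ'] at hsum
    omega
  rw [hτ', zpow_one] at hτ
  rw [hζ', zpow_one] at hζ
  -- the unit
  have hy0 : y ≠ 0 := by
    rintro rfl
    rw [map_zero] at ha
    exact zpow_ne_zero a hw0 ha.symm
  have hden : z ^ a * t ^ b ≠ 0 := mul_ne_zero (zpow_ne_zero _ hz0) (zpow_ne_zero _ ht0)
  have hu : ∀ i, (W i).valuation (y / (z ^ a * t ^ b)) = 1 := by
    intro i
    fin_cases i
    · show (W 0).valuation (y / (z ^ a * t ^ b)) = 1
      rw [map_div₀, map_mul, map_zpow₀, map_zpow₀, hz_0, ht_0, one_zpow, mul_one, ha]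
      exact div_self (zpow_ne_zero _ hw0)
    · show (W 1).valuation (y / (z ^ a * t ^ b)) = 1
      rw [map_div₀, map_mul, map_zpow₀, map_zpow₀, hz_1, ht_1, one_zpow, one_mul, hb]
      exact div_self (zpow_ne_zero _ hw1)
  have hNu := T.norm_unit hu
  have hy : y = y / (z ^ a * t ^ b) * (z ^ a * t ^ b) := (div_mul_cancel₀ _ hden).symm
  rw [hy, map_mul, map_mul, hNu, one_mul, map_mul, map_mul, Algebra.norm_zpow, Algebra.norm_zpow,
    map_zpow₀, map_zpow₀, hζ, hτ, zpow_add₀ hv]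

end Fermat.Agent.S36.BP.BuildHalf
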