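/-
S36, block BP / BUILD-HALF (sub-architect helper154): `TABLE ⇒ Half`.  Node H4.
Lower bound for the ramification index.
-/
import Fermat.Agent.S36.BP.Build.HalfVal

set_option autoImplicit false

namespace Fermat.Agent.S36.BP.BuildHalf

open IsLocalRing IsDedekindDomain

variable {K L : Type*} [Field K] [Field L] [Algebra K L]
variable {V : ValuationSubring K} [IsDiscreteValuationRing V] [FiniteDimensional K L] [CharZero K]
  {W : ValuationSubring L}

/-- The adic valuation of the centre is monotone with respect to the valuation of `W`. -/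
theorem halfRam_spec_valuation_mono (hW : W.comap (algebraMap K L) = V) {x y : L}
    (hxy : W.valuation x ≤ W.valuation y) :
    (spec hW).valuation L x ≤ (spec hW).valuation L y := by
  by_cases hy : y = 0
  · subst hy
    rw [map_zero, le_zero_iff, map_eq_zero] at hxy
    subst hxy
    exact le_rfl
  · have hy1 : 0 < W.valuation y := zero_lt_iff.2 ((map_ne_zero _).2 hy)
    have hy2 : 0 < (spec hW).valuation L y := zero_lt_iff.2 ((map_ne_zero _).2 hy)
    have h1 : W.valuation (x / y) ≤ 1 := by
      rw [map_div₀]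
      exact (div_le_one₀ hy1).2 hxy
    have h2 : (spec hW).valuation L (x / y) ≤ 1 :=
      (spec_valuation_le_one_iff hW _).2 ((W.valuation_le_one_iff _).1 h1)
    rw [map_div₀] at h2
    exact (div_le_one₀ hy2).1 h2

/-- In `ℤᵐ⁰`, `x < 1` implies `x ≤ exp (-1)`. -/
theorem halfRam_le_exp_neg_one {x : WithZero (Multiplicative ℤ)} (hx : x < 1) :
    x ≤ WithZero.exp (-1 : ℤ) := by
  rw [← WithZero.lt_mul_exp_iff_le WithZero.exp_ne_zero, ← WithZero.exp_add]
  simpa using hx

/-- With `v = (spec hW).valuation L`: `W x ≤ W y → v x ≤ v y`, `v ϖ₁ < 1` so `v ϖ₁ ≤ exp (-1)`, so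
`v a ≤ exp (-e)` for `a ∈ 𝔪_V`, i.e. `𝔪_V (IC V L) ≤ P ^ e` (`intValuation_le_pow_iff_mem`); conclude
with `Ideal.IsDedekindDomain.ramificationIdx_eq_multiplicity` (or `..._normalizedFactors_count`). -/
theorem le_ramificationIdx (hW : W.comap (algebraMap K L) = V) {e : ℕ} {ϖ₁ : L}
    (hϖ₁ : W.valuation ϖ₁ < 1)
    (h : ∀ a : K, V.valuation a < 1 → W.valuation (algebraMap K L a) ≤ W.valuation ϖ₁ ^ e) :
    e ≤ (centre V W).ramificationIdx V := by
  have hprime : (centre V W).IsPrime := centre_isPrime hW.ge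
  have hlies : (centre V W).LiesOver (maximalIdeal V) := centre_liesOver hW
  have hp0 : maximalIdeal V ≠ ⊥ := IsDiscreteValuationRing.not_a_field V
  have hmap0 : (maximalIdeal V).map (algebraMap V (IC V L)) ≠ ⊥ :=
    Ideal.map_ne_bot_of_ne_bot hp0
  have hϖ : (spec hW).valuation L ϖ₁ ≤ WithZero.exp (-1 : ℤ) :=
    halfRam_le_exp_neg_one ((spec_valuation_lt_one_iff hW _).2 hϖ₁)
  have hle : (maximalIdeal V).map (algebraMap V (IC V L)) ≤ centre V W ^ e := by
    rw [Ideal.map_le_iff_le_comap]
    intro a ha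
    rw [Ideal.mem_comap]
    have ha1 : V.valuation (a : K) < 1 := (ValuationSubring.valuation_lt_one_iff V a).1 ha
    have h1 : W.valuation (algebraMap K L (a : K)) ≤ W.valuation (ϖ₁ ^ e) := by
      rw [map_pow]; exact h _ ha1
    have h2 := halfRam_spec_valuation_mono hW h1
    have h3 : (spec hW).valuation L (ϖ₁ ^ e) ≤ WithZero.exp (-(e : ℤ)) := by
      rw [map_pow]
      calc (spec hW).valuation L ϖ₁ ^ e ≤ WithZero.exp (-1 : ℤ) ^ e := pow_le_pow_left₀ zero_le hϖ e
        _ = WithZero.exp (-(e : ℤ)) := by rw [← WithZero.exp_nsmul]; simp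
    have h4 : (spec hW).intValuation (algebraMap V (IC V L) a) ≤ WithZero.exp (-(e : ℤ)) := by
      rw [← HeightOneSpectrum.valuation_of_algebraMap (K := L)]
      exact h2.trans h3
    exact ((spec hW).intValuation_le_pow_iff_mem _ e).1 h4
  rw [Ideal.IsDedekindDomain.ramificationIdx_eq_multiplicity (maximalIdeal V) (centre V W) hmap0]
  have hfin : FiniteMultiplicity (centre V W) ((maximalIdeal V).map (algebraMap V (IC V L))) := by
    apply FiniteMultiplicity.of_prime_left (Ideal.prime_of_isPrime (centre_ne_bot hW) hprime) hmap0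
  exact hfin.le_multiplicity_of_pow_dvd (Ideal.dvd_iff_le.2 hle)

end Fermat.Agent.S36.BP.BuildHalf
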