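/-
S36, block BP / BUILD-HALF (sub-architect helper154): `TABLE ⇒ Half`.  Node H9.
The residue formula for norms as a congruence; density when `f = 1`.
-/
import Fermat.Agent.S36.BP.Build.HalfNorm
import Fermat.Agent.S36.BP.Build.HalfField

set_option autoImplicit false

namespace Fermat.Agent.S36.BP.BuildHalf

open IsLocalRing IsDedekindDomain

variable {K L : Type*} [Field K] [Field L] [Algebra K L]
variable {V : ValuationSubring K} [IsDiscreteValuationRing V] [FiniteDimensional K L] [CharZero K]
  {ι : Type*} [Fintype ι] {W : ι → ValuationSubring L} {e f : ι → ℕ}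

attribute [local instance] Ideal.Quotient.field

omit [IsDiscreteValuationRing V] [FiniteDimensional K L] [CharZero K] in
/-- The residue degree as a `finrank`. -/
theorem Tab.halfRes_finrank (T : Tab V W e f) (i : ι) :
    have := centre_liesOver (T.lies i)
    Module.finrank (V ⧸ maximalIdeal V) (IC V L ⧸ centre V (W i)) = f i := by
  have := centre_liesOver (T.lies i)
  have := centre_isMaximal (T.lies i)
  rw [← T.inertia i, Ideal.inertiaDeg_eq_of_isMaximal (maximalIdeal V) (centre V (W i))]

omit [IsDiscreteValuationRing V] [FiniteDimensional K L] [CharZero K] in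
/-- Congruence modulo the centre in terms of the valuation. -/
theorem Tab.halfRes_mk_eq (T : Tab V W e f) (i : ι) (a b : IC V L) :
    Ideal.Quotient.mk (centre V (W i)) a = Ideal.Quotient.mk (centre V (W i)) b ↔
      (W i).valuation ((a : L) - (b : L)) < 1 := by
  rw [Ideal.Quotient.eq, mem_centre (T.lies i).ge]
  rfl

omit [IsDiscreteValuationRing V] [FiniteDimensional K L] [CharZero K] in
theorem Tab.halfRes_mem (T : Tab V W e f) (i : ι) {c : K} {z : L} (hz : z ∈ W i)
    (hc : (W i).valuation (algebraMap K L c - z) < 1) : c ∈ V := by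
  have h1 : algebraMap K L c ∈ W i := by
    have h2 : algebraMap K L c - z ∈ W i := ((W i).valuation_le_one_iff _).1 hc.le
    have := (W i).add_mem _ _ h2 hz
    simpa using this
  have h3 : c ∈ (W i).comap (algebraMap K L) := h1
  rwa [T.lies i] at h3

/-- `Lib.ResidueNorm.mk_intNorm_eq_prod` with `P i = centre V (W i)`; `T.inertia` and
`Ideal.inertiaDeg_eq_of_isMaximal` give `finrank (V ⧸ 𝔪_V) (IC V L ⧸ P i) = f i`; if `f i = 1` the
norm of `algebraMap c` is `c` (`Algebra.norm_algebraMap`), if `f i = q` use `norm_eq_of_pow_eq`. -/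
theorem Tab.norm_cong (T : Tab V W e f) {q : ℕ} (hq : q.Prime) (hqV : V.valuation (q : K) < 1)
    (hf : ∀ i, f i = 1 ∨ f i = q) {y : L} (hy : ∀ i, y ∈ W i) (c : ι → K)
    (hc : ∀ i, (W i).valuation (algebraMap K L (c i) - y ^ f i) < 1) :
    V.valuation (Algebra.norm K y - ∏ i, c i ^ e i) < 1 := by
  have : ∀ i, (centre V (W i)).LiesOver (maximalIdeal V) := fun i => centre_liesOver (T.lies i)
  have : ∀ i, (centre V (W i)).IsMaximal := fun i => centre_isMaximal (T.lies i)
  have hcV : ∀ i, c i ∈ V := fun i => T.halfRes_mem i ((W i).pow_mem (hy i) _) (hc i)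
  set b : IC V L := ⟨y, T.isIntegral hy⟩ with hb
  set c' : ι → V := fun i => ⟨c i, hcV i⟩ with hc'
  have hp : (maximalIdeal V).map (algebraMap V (IC V L)) ≠ ⊥ := by
    rw [Ne, Ideal.map_eq_bot_iff_of_injective (FaithfulSMul.algebraMap_injective V (IC V L))]
    exact IsDiscreteValuationRing.not_a_field V
  have hchar : CharP (V ⧸ maximalIdeal V) q := by
    rw [CharP.charP_iff_prime_eq_zero hq]
    have h1 : ((q : V) : K) = (q : K) := by push_cast; rfl
    have h2 : (q : V) ∈ maximalIdeal V := by
      rw [V.valuation_lt_one_iff, h1]; exact hqV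
    have h3 := Ideal.Quotient.eq_zero_iff_mem.2 h2
    simpa using h3
  have key := Fermat.Agent.Lib.ResidueNorm.mk_intNorm_eq_prod (maximalIdeal V)
    (fun i => centre V (W i)) e hp T.fac b
  have hfactor : ∀ i, Algebra.norm (V ⧸ maximalIdeal V) (Ideal.Quotient.mk (centre V (W i)) b) =
      Ideal.Quotient.mk (maximalIdeal V) (c' i) := by
    intro i
    have hfin := T.halfRes_finrank i
    have hpow : (Ideal.Quotient.mk (centre V (W i)) b) ^ f i =
        algebraMap (V ⧸ maximalIdeal V) (IC V L ⧸ centre V (W i))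
          (Ideal.Quotient.mk (maximalIdeal V) (c' i)) := by
      have h1 : algebraMap (V ⧸ maximalIdeal V) (IC V L ⧸ centre V (W i))
          (Ideal.Quotient.mk (maximalIdeal V) (c' i)) =
          Ideal.Quotient.mk (centre V (W i)) (algebraMap V (IC V L) (c' i)) := rfl
      rw [h1, ← map_pow, eq_comm, T.halfRes_mk_eq i]
      exact hc i
    rcases hf i with h | h
    · rw [h, pow_one] at hpow
      rw [hpow, Algebra.norm_algebraMap, hfin, h, pow_one]
    · rw [h] at hpow hfin
      have : FiniteDimensional (V ⧸ maximalIdeal V) (IC V L ⧸ centre V (W i)) :=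
        Module.finite_of_finrank_pos (by rw [hfin]; exact hq.pos)
      exact norm_eq_of_pow_eq (k := V ⧸ maximalIdeal V) (l := IC V L ⧸ centre V (W i)) q hq hfin
        (Ideal.Quotient.mk (centre V (W i)) b) (Ideal.Quotient.mk (maximalIdeal V) (c' i)) hpow
  have h2 : Ideal.Quotient.mk (maximalIdeal V) (Algebra.intNorm V (IC V L) b) =
      Ideal.Quotient.mk (maximalIdeal V) (∏ i, c' i ^ e i) := by
    rw [key, map_prod]
    refine Finset.prod_congr rfl fun i _ => ?_
    rw [hfactor i, map_pow]
  rw [Ideal.Quotient.eq, V.valuation_lt_one_iff] at h2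
  have h3 : ((Algebra.intNorm V (IC V L) b - ∏ i, c' i ^ e i : V) : K) =
      Algebra.norm K y - ∏ i, c i ^ e i := by
    push_cast
    rw [coe_intNorm]
  rwa [h3] at h2

/-- `exists_IC_cong`, and `finrank = 1` makes `V ⧸ 𝔪_V → IC V L ⧸ P i` surjective. -/
theorem Tab.dense (T : Tab V W e f) (i : ι) (hi : f i = 1) {y : L} (hy : y ∈ W i) :
    ∃ y' : K, (W i).valuation (algebraMap K L y' - y) < 1 := by
  have := centre_liesOver (T.lies i)
  have := centre_isMaximal (T.lies i)
  obtain ⟨b, hb⟩ := exists_IC_cong (T.lies i) hy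
  have hfin := T.halfRes_finrank i
  rw [hi] at hfin
  obtain ⟨a, ha⟩ := (finrank_eq_one_iff_of_nonzero'
    (1 : IC V L ⧸ centre V (W i)) one_ne_zero).1 hfin (Ideal.Quotient.mk _ b)
  obtain ⟨a, rfl⟩ := Ideal.Quotient.mk_surjective a
  have h1 : Ideal.Quotient.mk (centre V (W i)) (algebraMap V (IC V L) a) =
      Ideal.Quotient.mk (centre V (W i)) b := by
    rw [← ha, Algebra.smul_def, mul_one]
    rfl
  rw [T.halfRes_mk_eq i] at h1
  refine ⟨a, ?_⟩
  have h2 : algebraMap K L (a : K) - y =
      (((algebraMap V (IC V L) a : IC V L) : L) - (b : L)) + ((b : L) - y) := by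
    have : ((algebraMap V (IC V L) a : IC V L) : L) = algebraMap K L (a : K) := rfl
    rw [this]; ring
  rw [h2]
  exact Valuation.map_add_lt _ h1 hb

end Fermat.Agent.S36.BP.BuildHalf
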