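/-
S36, block BP / BUILD-HALF (sub-architect helper154): `TABLE ⇒ Half`.  Node H11: assembly.
-/
import Fermat.Agent.S36.BP.Build.HalfRam
import Fermat.Agent.S36.BP.Build.HalfInertia
import Fermat.Agent.S36.BP.Build.HalfFac
import Fermat.Agent.S36.BP.Build.HalfRes
import Fermat.Agent.S36.BP.Build.HalfOrd
import Fermat.Agent.S36.BP.Defs

set_option autoImplicit false

namespace Fermat.Agent.S36.BP.BuildHalf

open IsLocalRing IsDedekindDomain Fermat.Agent.S18

section Transfer

variable {K L : Type*} [Field K] [Field L] [Algebra K L]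
  {V : ValuationSubring K} {W : ValuationSubring L}

theorem tr_mem_iff (hW : W.comap (algebraMap K L) = V) (x : K) : algebraMap K L x ∈ W ↔ x ∈ V := by
  rw [← hW, ValuationSubring.mem_comap]

theorem tr_le_one_iff (hW : W.comap (algebraMap K L) = V) (x : K) :
    W.valuation (algebraMap K L x) ≤ 1 ↔ V.valuation x ≤ 1 := by
  rw [ValuationSubring.valuation_le_one_iff, ValuationSubring.valuation_le_one_iff, tr_mem_iff hW]

theorem tr_lt_one_iff (hW : W.comap (algebraMap K L) = V) (x : K) :
    W.valuation (algebraMap K L x) < 1 ↔ V.valuation x < 1 := by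
  rcases eq_or_ne x 0 with rfl | hx
  · simp
  have hx' : algebraMap K L x ≠ 0 := (map_ne_zero _).mpr hx
  rw [valuation_lt_one_iff_inv_not_mem hx', valuation_lt_one_iff_inv_not_mem hx, ← map_inv₀,
    tr_mem_iff hW]

theorem tr_eq_one_iff (hW : W.comap (algebraMap K L) = V) (x : K) :
    W.valuation (algebraMap K L x) = 1 ↔ V.valuation x = 1 := by
  constructor
  · intro h
    exact le_antisymm ((tr_le_one_iff hW x).mp h.le)
      (not_lt.mp fun h' => absurd ((tr_lt_one_iff hW x).mpr h') (by rw [h]; exact lt_irrefl _))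
  · intro h
    exact le_antisymm ((tr_le_one_iff hW x).mpr h.le)
      (not_lt.mp fun h' => absurd ((tr_lt_one_iff hW x).mp h') (by rw [h]; exact lt_irrefl _))

theorem tr_zpow (hW : W.comap (algebraMap K L) = V) {x ϖ : K} (hϖ : ϖ ≠ 0) {k : ℤ}
    (h : V.valuation x = V.valuation ϖ ^ k) :
    W.valuation (algebraMap K L x) = W.valuation (algebraMap K L ϖ) ^ k := by
  have hv : V.valuation ϖ ^ k ≠ 0 := zpow_ne_zero _ ((Valuation.ne_zero_iff _).mpr hϖ)
  have hw : W.valuation (algebraMap K L ϖ) ^ k ≠ 0 :=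
    zpow_ne_zero _ ((Valuation.ne_zero_iff _).mpr ((map_ne_zero _).mpr hϖ))
  have h1 : V.valuation (x / ϖ ^ k) = 1 := by
    rw [map_div₀, map_zpow₀, h, div_self hv]
  have h2 := (tr_eq_one_iff hW _).mpr h1
  rw [map_div₀, map_zpow₀, map_div₀, map_zpow₀, div_eq_one_iff_eq hw] at h2
  exact h2

end Transfer

theorem half_of_table {F₁ F : Type*} [Field F₁] [Field F] [Algebra F₁ F] [CharZero F₁] {q : ℕ}
    (hq : q.Prime) (hdeg : Module.finrank F₁ F = q)
    {U U' : ValuationSubring F₁} (hU : IsUnif U (q : F₁)) (hU' : IsUnif U' (q : F₁))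
    {Va Vm Vb : ValuationSubring F} {ϖm : F}
    (ha : Va.comap (algebraMap F₁ F) = U) (hm : Vm.comap (algebraMap F₁ F) = U)
    (hb : Vb.comap (algebraMap F₁ F) = U') (hne : Va ≠ Vm)
    (hua : IsUnif Va (q : F)) (hum : IsUnif Vm ϖm)
    (hram : Vm.valuation ϖm ^ (q - 1) = Vm.valuation (q : F)) (hub : IsUnif Vb (q : F))
    (insep : ∀ y ∈ Vb, ∃ y' : F₁, Vb.valuation (algebraMap F₁ F y' - y ^ q) < 1)
    (nontriv : ∃ y ∈ Vb, ∀ y' : F₁, ¬ Vb.valuation (algebraMap F₁ F y' - y) < 1) :
    Half q ϖm (algebraMap F₁ F).fieldRange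
      ((algebraMap F₁ F : F₁ →* F).comp (Algebra.norm F₁)) Va Vm Vb := by
  have hfin : FiniteDimensional F₁ F := Module.finite_of_finrank_pos (by rw [hdeg]; exact hq.pos)
  have hdU : IsDiscreteValuationRing U := hU.isDiscreteValuationRing
  have hdU' : IsDiscreteValuationRing U' := hU'.isDiscreteValuationRing
  have hq0 : (q : F₁) ≠ 0 := Nat.cast_ne_zero.mpr hq.ne_zero
  have hcast : algebraMap F₁ F (q : F₁) = (q : F) := map_natCast _ _
  have hqU : U.valuation (q : F₁) < 1 := approx_val_unif_lt_one hU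
  have hqU' : U'.valuation (q : F₁) < 1 := approx_val_unif_lt_one hU'
  -- the table over `U`
  have hWA : ∀ i, ((![Va, Vm] : Fin 2 → ValuationSubring F) i).comap (algebraMap F₁ F) = U := by
    intro i
    fin_cases i
    · exact ha
    · exact hm
  have hinjA : Function.Injective (![Va, Vm] : Fin 2 → ValuationSubring F) := by
    intro i j hij
    fin_cases i <;> fin_cases j
    · rfl
    · exact absurd hij hne
    · exact absurd hij.symm hne
    · rfl
  have TA : Tab U (![Va, Vm] : Fin 2 → ValuationSubring F) ![1, q - 1] ![1, 1] := by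
    refine tab_of_table hWA hinjA ?_ ?_ ?_
    · intro i
      fin_cases i
      · have := centre_isPrime (V := U) (W := Va) ha.ge
        exact Ideal.ramificationIdx_pos (centre U Va) U
      · refine le_ramificationIdx (V := U) (W := Vm) hm (approx_val_unif_lt_one hum) ?_
        intro a haU
        show Vm.valuation (algebraMap F₁ F a) ≤ Vm.valuation ϖm ^ (q - 1)
        rw [hram, ← hcast]
        have h1 : U.valuation (a / (q : F₁)) ≤ 1 := by
          rw [map_div₀]
          exact (div_le_one₀ (zero_lt_iff.mpr ((Valuation.ne_zero_iff _).mpr hq0))).mpr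
            (approx_val_le_unif hU haU)
        have h2 := (tr_le_one_iff hm _).mpr h1
        rw [map_div₀, map_div₀] at h2
        exact (div_le_one₀ (zero_lt_iff.mpr ((Valuation.ne_zero_iff _).mpr
          ((map_ne_zero _).mpr hq0)))).mp h2
    · intro i
      fin_cases i
      · have := centre_isPrime (V := U) (W := Va) ha.ge
        exact Ideal.inertiaDeg_pos (centre U Va) U
      · have := centre_isPrime (V := U) (W := Vm) hm.ge
        exact Ideal.inertiaDeg_pos (centre U Vm) U
    · rw [hdeg, Fin.sum_univ_two]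
      have := hq.one_lt
      simp
      omega
  -- the table over `U'`
  have TB : Tab U' (fun _ : Unit => Vb) (fun _ => 1) (fun _ => q) := by
    refine tab_of_table (fun _ => hb) (fun _ _ _ => rfl) ?_ ?_ ?_
    · intro _
      have := centre_isPrime (V := U') (W := Vb) hb.ge
      exact Ideal.ramificationIdx_pos (centre U' Vb) U'
    · intro _
      obtain ⟨y, hy, hn⟩ := nontriv
      obtain ⟨c, hc⟩ := insep y hy
      exact le_inertiaDeg hb hq hqU' hy hc hn
    · simp [hdeg]
  refine ⟨?_, ?_, ?_, ?_, ?_, ?_, ?_, ?_⟩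
  · -- norm_mem
    intro y
    exact ⟨_, rfl⟩
  · -- compat
    rintro _ ⟨y, rfl⟩
    rw [tr_mem_iff ha, tr_mem_iff hm]
  · -- dense_a
    intro y hy
    obtain ⟨y', hy'⟩ := TA.dense 0 rfl (y := y) hy
    exact ⟨_, ⟨y', rfl⟩, hy'⟩
  · -- dense_m
    intro y hy
    obtain ⟨y', hy'⟩ := TA.dense 1 rfl (y := y) hy
    exact ⟨_, ⟨y', rfl⟩, hy'⟩
  · -- ord_a
    intro y a b hya hyb
    have h := ord_of_tab_two hU hdeg hq.two_le TA (by rw [hcast]; exact hua) hum
      (by rw [hcast]; exact hram) y a b (by rw [hcast]; exact hya) hyb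
    have h2 := tr_zpow ha hq0 h
    rw [hcast] at h2
    exact h2
  · -- ord_b
    intro y
    have h := ord_of_tab_one hU' TB (by rw [hcast]; exact hub) y
    rw [hdeg] at h
    exact h
  · -- res_a
    rintro y _ _ hya hym ⟨a, rfl⟩ ⟨b, rfl⟩ hay hby
    have hy : ∀ i, y ∈ (![Va, Vm] : Fin 2 → ValuationSubring F) i := by
      intro i
      fin_cases i
      · exact (Va.valuation_le_one_iff y).mp hya.le
      · exact (Vm.valuation_le_one_iff y).mp hym.le
    have h := TA.norm_cong hq hqU (fun i => Or.inl (by fin_cases i <;> rfl)) hy ![a, b] (by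
      intro i
      fin_cases i
      · show Va.valuation (algebraMap F₁ F a - y ^ 1) < 1
        rw [pow_one]; exact hay
      · show Vm.valuation (algebraMap F₁ F b - y ^ 1) < 1
        rw [pow_one]; exact hby)
    rw [Fin.prod_univ_two] at h
    have h2 := (tr_lt_one_iff ha _).mpr h
    simpa using h2
  · -- res_b
    intro y hy
    have hyV : y ∈ Vb := (Vb.valuation_le_one_iff y).mp hy.le
    obtain ⟨c, hc⟩ := insep y hyV
    have h := TB.norm_cong hq hqU' (fun _ => Or.inr rfl) (fun _ => hyV) (fun _ => c) (fun _ => hc)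
    have h2 := (tr_lt_one_iff hb _).mpr h
    have h3 : Cong Vb (algebraMap F₁ F (Algebra.norm F₁ y)) (algebraMap F₁ F c) := by
      simpa [Cong] using h2
    exact h3.trans hc

theorem norm_const {K₀ F₁ F : Type*} [Field K₀] [Field F₁] [Field F] [Algebra K₀ F₁]
    [Algebra K₀ F] [Algebra F₁ F] [IsScalarTower K₀ F₁ F] {q : ℕ}
    (hdeg : Module.finrank F₁ F = q) (a : K₀) :
    ((algebraMap F₁ F : F₁ →* F).comp (Algebra.norm F₁)) (algebraMap K₀ F a) =
      algebraMap K₀ F a ^ q := by
  show algebraMap F₁ F (Algebra.norm F₁ (algebraMap K₀ F a)) = algebraMap K₀ F a ^ q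
  rw [IsScalarTower.algebraMap_apply K₀ F₁ F, Algebra.norm_algebraMap, hdeg, map_pow]

end Fermat.Agent.S36.BP.BuildHalf
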