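/-
S36, block BP / BUILD-HALF (sub-architect helper154): completeness of a table, consumer forms.
-/
import Fermat.Agent.S36.BP.Build.HalfFinal

set_option autoImplicit false
set_option linter.style.haveILetI false

namespace Fermat.Agent.S36.BP.BuildHalf

open IsLocalRing IsDedekindDomain Fermat.Agent.S18

/-- A table lists ALL the extensions of `V`. -/
theorem Tab.complete {K L : Type*} [Field K] [Field L] [Algebra K L] {V : ValuationSubring K}
    [IsDiscreteValuationRing V] [FiniteDimensional K L] [CharZero K] {ι : Type*} [Fintype ι]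
    {W : ι → ValuationSubring L} {e f : ι → ℕ} (T : Tab V W e f) (W' : ValuationSubring L)
    (h : W'.comap (algebraMap K L) = V) : ∃ i, W' = W i := by
  obtain ⟨i, hi⟩ := T.exhaust (centre V W') (centre_isPrime h.ge) (centre_ne_bot h)
  exact ⟨i, eq_of_centre_eq h (T.lies i) hi⟩

/-- The purely inseparable component is the only extension of its restriction. -/
theorem complete_insep {F₁ F : Type*} [Field F₁] [Field F] [Algebra F₁ F] [CharZero F₁] {q : ℕ}
    (hq : q.Prime) (hdeg : Module.finrank F₁ F = q)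
    {U' : ValuationSubring F₁} (hU' : IsUnif U' (q : F₁)) {Vb : ValuationSubring F}
    (hb : Vb.comap (algebraMap F₁ F) = U')
    {y₀ : F} (hy₀ : y₀ ∈ Vb) {c : F₁} (hc : Vb.valuation (algebraMap F₁ F c - y₀ ^ q) < 1)
    (hn : ∀ y' : F₁, ¬ Vb.valuation (algebraMap F₁ F y' - y₀) < 1)
    (W : ValuationSubring F) (hW : W.comap (algebraMap F₁ F) = U') : W = Vb := by
  have hfin : FiniteDimensional F₁ F := Module.finite_of_finrank_pos (by rw [hdeg]; exact hq.pos)
  have hdU' : IsDiscreteValuationRing U' := hU'.isDiscreteValuationRing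
  have hqU' : U'.valuation (q : F₁) < 1 := approx_val_unif_lt_one hU'
  have TB : Tab U' (fun _ : Unit => Vb) (fun _ => 1) (fun _ => q) := by
    refine tab_of_table (fun _ => hb) (fun _ _ _ => rfl) ?_ ?_ ?_
    · intro _
      have := centre_isPrime (V := U') (W := Vb) hb.ge
      exact Ideal.ramificationIdx_pos (centre U' Vb) U'
    · intro _
      exact le_inertiaDeg hb hq hqU' hy₀ hc hn
    · simp [hdeg]
  obtain ⟨_, h⟩ := TB.complete W hW
  exact h

theorem complete_insep_hom {F₁ F : Type*} [Field F₁] [Field F] [CharZero F₁] (φ : F₁ →+* F) {q : ℕ}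
    (hq : q.Prime) (hdeg : (letI := φ.toAlgebra; Module.finrank F₁ F) = q)
    {U' : ValuationSubring F₁} (hU' : IsUnif U' (q : F₁)) {Vb : ValuationSubring F}
    (hb : Vb.comap φ = U')
    {y₀ : F} (hy₀ : y₀ ∈ Vb) {c : F₁} (hc : Vb.valuation (φ c - y₀ ^ q) < 1)
    (hn : ∀ y' : F₁, ¬ Vb.valuation (φ y' - y₀) < 1)
    (W : ValuationSubring F) (hW : W.comap φ = U') : W = Vb := by
  letI := φ.toAlgebra
  exact complete_insep hq hdeg hU' hb hy₀ hc hn W hW

end Fermat.Agent.S36.BP.BuildHalf
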