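/-
S36, block BP/Build, node NU1: the norm preserves the units of the local ring `locSub B 𝔫` when `𝔫`
is the only maximal ideal of `B` above its contraction to the subfield `F₁`.
-/
import Mathlib
import Fermat.Agent.S18.Defs
import Fermat.Agent.S36.BP.Defs
import Fermat.Agent.S36.BP.Loc.Basic

set_option autoImplicit false
set_option linter.unusedSectionVars false
set_option linter.style.haveILetI false

noncomputable section

namespace Fermat.Agent.S36.BP.Build

open Fermat.Agent.S18 Polynomial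

section NU

variable {F₁ F : Type*} [Field F₁] [Field F] [Algebra F₁ F] [FiniteDimensional F₁ F]
  [CharZero F₁]

/-- The inclusion of `B ∩ F₁` into `B`. -/
def comapIncl (B : Subring F) : (B.comap (algebraMap F₁ F)) →+* B :=
  ((algebraMap F₁ F).comp (B.comap (algebraMap F₁ F)).subtype).codRestrict B (fun x => x.2)

omit [FiniteDimensional F₁ F] [CharZero F₁] in
theorem coe_comapIncl (B : Subring F) (t : B.comap (algebraMap F₁ F)) :
    ((comapIncl B t : B) : F) = algebraMap F₁ F (t : F₁) := rfl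

omit [FiniteDimensional F₁ F] [CharZero F₁] in
/-- an element of `B` outside `𝔫` divides an element of `B ∩ F₁` outside `𝔫`. -/
theorem exists_mul_eq_comapIncl (B : Subring F)
    (hint : ∀ b ∈ B, IsIntegral (B.comap (algebraMap F₁ F)) b)
    (𝔫 : Ideal B) [𝔫.IsMaximal]
    (huniq : ∀ 𝔫' : Ideal B, 𝔫'.IsMaximal →
      (∀ b : B, (b : F) ∈ (algebraMap F₁ F).fieldRange → (b ∈ 𝔫' ↔ b ∈ 𝔫)) → 𝔫' = 𝔫)
    (s : B) (hs : s ∉ 𝔫) :
    ∃ (t : B.comap (algebraMap F₁ F)) (c : B), comapIncl B t ∉ 𝔫 ∧ s * c = comapIncl B t := by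
  letI : Algebra (B.comap (algebraMap F₁ F)) B := (comapIncl B).toAlgebra
  haveI : IsScalarTower (B.comap (algebraMap F₁ F)) B F :=
    IsScalarTower.of_algebraMap_eq fun _ => rfl
  haveI : Algebra.IsIntegral (B.comap (algebraMap F₁ F)) B := ⟨fun b => by
    have h := hint b b.2
    exact (isIntegral_algebraMap_iff (A := B) (B := F) Subtype.val_injective).mp h⟩
  by_contra hcon
  push Not at hcon
  have hmax1 : (𝔫.comap (algebraMap (B.comap (algebraMap F₁ F)) B)).IsMaximal :=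
    Ideal.isMaximal_comap_of_isIntegral_of_isMaximal 𝔫
  have hle : (Ideal.span {s}).comap (algebraMap (B.comap (algebraMap F₁ F)) B) ≤
      𝔫.comap (algebraMap (B.comap (algebraMap F₁ F)) B) := by
    intro t ht
    rw [Ideal.mem_comap] at ht ⊢
    obtain ⟨c, hc⟩ := Ideal.mem_span_singleton'.mp ht
    by_contra hn
    exact hcon t c hn (by rw [mul_comm]; exact hc)
  obtain ⟨Q, hQ, hQp, hQc⟩ := Ideal.exists_ideal_over_prime_of_isIntegral
    (𝔫.comap (algebraMap (B.comap (algebraMap F₁ F)) B)) (Ideal.span {s}) hle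
  have hQmax : Q.IsMaximal :=
    Ideal.isMaximal_of_isIntegral_of_isMaximal_comap Q (by rw [hQc]; exact hmax1)
  have hQ𝔫 : Q = 𝔫 := by
    refine huniq Q hQmax fun b hb => ?_
    obtain ⟨z, hz⟩ := hb
    have hzB : z ∈ B.comap (algebraMap F₁ F) := by
      rw [Subring.mem_comap, hz]; exact b.2
    have hb' : b = algebraMap (B.comap (algebraMap F₁ F)) B ⟨z, hzB⟩ := Subtype.ext hz.symm
    rw [hb', ← Ideal.mem_comap, ← Ideal.mem_comap, hQc]
  exact hs (hQ𝔫 ▸ hQ (Ideal.mem_span_singleton_self s))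

omit [CharZero F₁] in
/-- the norm of an element of `B`, viewed in `F`, lies in `B`. -/
theorem algebraMap_norm_mem (B : Subring F)
    (hint : ∀ b ∈ B, IsIntegral (B.comap (algebraMap F₁ F)) b)
    (hcl : ∀ y : F, IsIntegral B y → y ∈ B) (b : F) (hb : b ∈ B) :
    algebraMap F₁ F (Algebra.norm F₁ b) ∈ B := by
  letI : Algebra (B.comap (algebraMap F₁ F)) B := (comapIncl B).toAlgebra
  haveI : IsScalarTower (B.comap (algebraMap F₁ F)) B F :=
    IsScalarTower.of_algebraMap_eq fun _ => rfl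
  have h1 : IsIntegral (B.comap (algebraMap F₁ F)) (Algebra.norm F₁ b) :=
    Algebra.isIntegral_norm F₁ (hint b hb)
  have h2 : IsIntegral (B.comap (algebraMap F₁ F)) (algebraMap F₁ F (Algebra.norm F₁ b)) :=
    h1.algebraMap
  exact hcl _ h2.tower_top

omit [CharZero F₁] in
/-- the norm maps the local ring to itself. -/
theorem algebraMap_norm_mem_locSub (B : Subring F)
    (hint : ∀ b ∈ B, IsIntegral (B.comap (algebraMap F₁ F)) b)
    (hcl : ∀ y : F, IsIntegral B y → y ∈ B)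
    (𝔫 : Ideal B) [𝔫.IsMaximal]
    (huniq : ∀ 𝔫' : Ideal B, 𝔫'.IsMaximal →
      (∀ b : B, (b : F) ∈ (algebraMap F₁ F).fieldRange → (b ∈ 𝔫' ↔ b ∈ 𝔫)) → 𝔫' = 𝔫)
    (y : F) (hy : y ∈ locSub B 𝔫) :
    algebraMap F₁ F (Algebra.norm F₁ y) ∈ locSub B 𝔫 := by
  obtain ⟨a, s, hs, e⟩ := hy
  obtain ⟨t, c, ht, hc⟩ := exists_mul_eq_comapIncl B hint 𝔫 huniq s hs
  have hyt : y * algebraMap F₁ F (t : F₁) = ((a * c : B) : F) := by
    rw [← coe_comapIncl, ← hc]
    push_cast
    rw [← e]; ring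
  have hmem := algebraMap_norm_mem B hint hcl _ (a * c : B).2
  rw [← hyt, map_mul, Algebra.norm_algebraMap, map_mul, map_pow, ← coe_comapIncl] at hmem
  refine ⟨⟨_, hmem⟩, comapIncl B t ^ Module.finrank F₁ F, fun h => ht ?_, ?_⟩
  · exact (Ideal.IsPrime.mem_of_pow_mem inferInstance _ h)
  · push_cast
    rfl

/-- **(NU)** if `𝔫` is the only maximal ideal of `B` above its contraction to `F₁`, the norm
preserves the units of the local ring. -/
theorem norm_unit_of_unique (B : Subring F)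
    (hint : ∀ b ∈ B, IsIntegral (B.comap (algebraMap F₁ F)) b)
    (hcl : ∀ y : F, IsIntegral B y → y ∈ B)
    (𝔫 : Ideal B) [𝔫.IsMaximal]
    (huniq : ∀ 𝔫' : Ideal B, 𝔫'.IsMaximal →
      (∀ b : B, (b : F) ∈ (algebraMap F₁ F).fieldRange → (b ∈ 𝔫' ↔ b ∈ 𝔫)) → 𝔫' = 𝔫) :
    ∀ ε : F, RUnit (locSub B 𝔫) ε →
      RUnit (locSub B 𝔫) (algebraMap F₁ F (Algebra.norm F₁ ε)) := by
  rintro ε ⟨h0, h1, h2⟩
  refine ⟨?_, algebraMap_norm_mem_locSub B hint hcl 𝔫 huniq ε h1, ?_⟩
  · rw [Ne, map_eq_zero, Algebra.norm_eq_zero_iff]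
    exact h0
  · have := algebraMap_norm_mem_locSub B hint hcl 𝔫 huniq ε⁻¹ h2
    have hinv : Algebra.norm F₁ ε⁻¹ = (Algebra.norm F₁ ε)⁻¹ := by
      apply eq_inv_of_mul_eq_one_left
      rw [← map_mul, inv_mul_cancel₀ h0, map_one]
    rwa [hinv, map_inv₀] at this

end NU

end Fermat.Agent.S36.BP.Build
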