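/-
S36, block BP/Build, node NU2 (task 1495, helper158): uniqueness of the point above, from
radicial residue extensions.
-/
import Mathlib
import Fermat.Agent.S18.Defs
import Fermat.Agent.S36.BP.Defs

set_option autoImplicit false

noncomputable section

namespace Fermat.Agent.S36.BP.Build

open Fermat.Agent.S18 Polynomial

section NU

variable {F₁ F : Type*} [Field F₁] [Field F] [Algebra F₁ F]

/-- **(UNIQ)** uniqueness of the point above, from: every component passes through `𝔫`, every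
maximal ideal containing `q` contains some `P_c`, the residue extensions are radicial. -/
theorem unique_of_radicial {κ : Type*} (V : κ → ValuationSubring F) (B : Subring F) (q : ℕ)
    (𝔫 : Ideal B) [𝔫.IsMaximal] (hq : (q : B) ∈ 𝔫)
    (hall : ∀ c, ∀ b : B, (V c).valuation (b : F) < 1 → b ∈ 𝔫)
    (hsome : ∀ 𝔫' : Ideal B, 𝔫'.IsMaximal → (q : B) ∈ 𝔫' →
      ∃ c, ∀ b : B, (V c).valuation (b : F) < 1 → b ∈ 𝔫')
    (hrad : ∀ c, ∀ b : B, ∃ m : ℕ, m ≠ 0 ∧ ∃ b' : B, (b' : F) ∈ (algebraMap F₁ F).fieldRange ∧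
      (V c).valuation ((b' : F) - (b : F) ^ m) < 1) :
    ∀ 𝔫' : Ideal B, 𝔫'.IsMaximal →
      (∀ b : B, (b : F) ∈ (algebraMap F₁ F).fieldRange → (b ∈ 𝔫' ↔ b ∈ 𝔫)) → 𝔫' = 𝔫 := by
  intro 𝔫' h𝔫' hiff
  have hqr : (((q : B) : B) : F) ∈ (algebraMap F₁ F).fieldRange := by
    refine ⟨(q : F₁), ?_⟩
    simp
  have hq' : (q : B) ∈ 𝔫' := (hiff _ hqr).2 hq
  obtain ⟨c, hc⟩ := hsome 𝔫' h𝔫' hq'
  have hle : 𝔫 ≤ 𝔫' := by
    intro b hb
    obtain ⟨m, hm, b', hb'r, hv⟩ := hrad c b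
    have hv' : (V c).valuation (((b' - b ^ m : B) : B) : F) < 1 := by
      simpa using hv
    have h1 : b' - b ^ m ∈ 𝔫 := hall c _ hv'
    have h2 : b' - b ^ m ∈ 𝔫' := hc _ hv'
    have hbm : b ^ m ∈ 𝔫 := Ideal.pow_mem_of_mem _ hb m (Nat.pos_of_ne_zero hm)
    have hb'n : b' ∈ 𝔫 := by
      have := 𝔫.add_mem h1 hbm
      simpa using this
    have hb'n' : b' ∈ 𝔫' := (hiff _ hb'r).2 hb'n
    have hbm' : b ^ m ∈ 𝔫' := by
      have := 𝔫'.sub_mem hb'n' h2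
      simpa using this
    exact h𝔫'.isPrime.mem_of_pow_mem m hbm'
  exact ((‹𝔫.IsMaximal›).eq_of_le h𝔫'.ne_top hle).symm

end NU

end Fermat.Agent.S36.BP.Build
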